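import Mathlib

/-!
# S14, team T2 (crossing hedge): shared definitions in "symbol language"

* `evalI Θ I` : additive extension to nonzero ideals of a function `Θ` on prime ideals
  (sum over the prime factors of `I`, with multiplicity).
* `sym p ζ a P` : the additive `p`-th power residue symbol of an integer `a` at a prime `P`
  (`P ∤ p`, `a ∉ P`): the `k : ZMod p` with `a ^ ((N P - 1) / p) ≡ ζ ^ k (mod P)`.
* `InX p ζ a m Θ` : `Θ` kills the principal ideals coprime to `m` and the primes `P ∤ m`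
  at which `a` is a `p`-th power residue (the "X-space" of the norm-index inequalities).
* `SIX p`, `FIX p` : the two norm-index statements (second and first inequality, in dual form)
  consumed by the crossing argument.
-/

set_option autoImplicit false

open NumberField

namespace Fermat.Agent.S14C

/-- Additive extension to ideals of a function on prime ideals: the sum of `Θ` over the prime
factors of `I`, counted with multiplicity. -/
noncomputable def evalI {R : Type*} [CommRing R] [IsDedekindDomain R] {p : ℕ}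
    (Θ : Ideal R → ZMod p) (I : Ideal R) : ZMod p :=
  ((UniqueFactorizationMonoid.normalizedFactors I).map Θ).sum

open Classical in
/-- The additive `p`-th power residue symbol: `sym p ζ a P = k` where
`a ^ ((N P - 1) / p) ≡ ζ ^ k (mod P)` (junk value `0` if there is no such `k`). -/
noncomputable def sym {F : Type*} [Field F] [NumberField F] (p : ℕ) (ζ a : 𝓞 F)
    (P : Ideal (𝓞 F)) : ZMod p :=
  if h : ∃ k : ZMod p, a ^ ((Ideal.absNorm P - 1) / p) - ζ ^ k.val ∈ P then h.choose else 0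

/-- The "X-space": functions on primes killing the principal ideals coprime to `m` and the
primes not dividing `m` at which `a` is a `p`-th power residue. -/
structure InX {F : Type*} [Field F] [NumberField F] (p : ℕ) (ζ a : 𝓞 F) (m : ℕ)
    (Θ : Ideal (𝓞 F) → ZMod p) : Prop where
  principal : ∀ x : 𝓞 F, IsCoprime x (m : 𝓞 F) → evalI Θ (Ideal.span {x}) = 0
  split : ∀ P : Ideal (𝓞 F), P.IsPrime → P ≠ ⊥ → (m : 𝓞 F) ∉ P → sym p ζ a P = 0 → Θ P = 0

/-- Second inequality (dual form, Chevalley): the X-space of `(F, a, m)` is at most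
one-dimensional, for every number field `F ∋ ζ_p` and every `a` which is not a `p`-th power. -/
def SIX (p : ℕ) : Prop :=
  ∀ (F : Type) [Field F] [NumberField F] (ζ a : 𝓞 F) (m : ℕ) (Θ Ψ : Ideal (𝓞 F) → ZMod p),
    IsPrimitiveRoot ζ p → (¬ ∃ y : F, (a : F) = y ^ p) → p ∣ m →
    (∀ P : Ideal (𝓞 F), P.IsPrime → a ∈ P → (m : 𝓞 F) ∈ P) →
    InX p ζ a m Θ → InX p ζ a m Ψ →
    (∃ P : Ideal (𝓞 F), P.IsPrime ∧ P ≠ ⊥ ∧ (m : 𝓞 F) ∉ P ∧ Ψ P ≠ 0) →
    ∃ c : ZMod p, ∀ P : Ideal (𝓞 F), P.IsPrime → P ≠ ⊥ → (m : 𝓞 F) ∉ P → Θ P = c * Ψ P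

/-- First inequality (dual form, Herbrand quotient of `S`-units): for `K = ℚ(ζ_p)` and a
singular, hyperprimary, non-`p`-th-power `α`, the X-space of `(K, α, m)` is nonzero. -/
def FIX (p : ℕ) : Prop :=
  ∀ (K : Type) [Field K] [NumberField K] [IsCyclotomicExtension {p} ℚ K] (ζ α : 𝓞 K) (m : ℕ),
    IsPrimitiveRoot ζ p → α ≠ 0 → (¬ ∃ y : K, (α : K) = y ^ p) →
    (∃ 𝔞 : Ideal (𝓞 K), Ideal.span {α} = 𝔞 ^ p) →
    (∀ x : 𝓞 K, (∃ y : K, y ≠ 0 ∧ (x : K) = (α : K) * y ^ p) →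
      ∀ n : ℕ, ∃ c : 𝓞 K, x - c ^ p ∈ Ideal.span {ζ - 1} ^ n) →
    m ≠ 0 → p ∣ m → (∀ P : Ideal (𝓞 K), P.IsPrime → α ∈ P → (m : 𝓞 K) ∈ P) →
    ∃ Θ : Ideal (𝓞 K) → ZMod p, InX p ζ α m Θ ∧
      ∃ P : Ideal (𝓞 K), P.IsPrime ∧ P ≠ ⊥ ∧ (m : 𝓞 K) ∉ P ∧ Θ P ≠ 0

/-- (Z) in consumer form: if `a` is not a `p`-th power in `F ∋ ζ_p`, there is a degree-one prime
`P` of `F`, of residue characteristic outside any given finite set, at which `a` is not a
`p`-th power residue. -/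
def ZSym (p : ℕ) : Prop :=
  ∀ (F : Type) [Field F] [NumberField F] (ζ a : 𝓞 F), IsPrimitiveRoot ζ p →
    (¬ ∃ y : F, (a : F) = y ^ p) → ∀ T : Finset ℕ,
    ∃ (P : Ideal (𝓞 F)) (ℓ : ℕ), P.IsPrime ∧ P ≠ ⊥ ∧ ℓ.Prime ∧ Ideal.absNorm P = ℓ ∧ ℓ ∉ T ∧
      ℓ ≠ p ∧ a ∉ P ∧ sym p ζ a P ≠ 0

end Fermat.Agent.S14C
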