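import Fermat.Agent.S14C.XDefs

/-!
# API for `evalI` (additive extension of a function on primes to nonzero ideals)
-/

set_option autoImplicit false

open NumberField UniqueFactorizationMonoid

namespace Fermat.Agent.S14C.EvalI

open Fermat.Agent.S14C

variable {R : Type*} [CommRing R] [IsDedekindDomain R] {p : ℕ}

theorem evalI_one (Θ : Ideal R → ZMod p) : evalI Θ (1 : Ideal R) = 0 := by
  unfold evalI
  rw [normalizedFactors_one]
  rfl

theorem evalI_top (Θ : Ideal R → ZMod p) : evalI Θ (⊤ : Ideal R) = 0 := by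
  rw [← Ideal.one_eq_top]; exact evalI_one Θ

theorem evalI_mul (Θ : Ideal R → ZMod p) {I J : Ideal R} (hI : I ≠ ⊥) (hJ : J ≠ ⊥) :
    evalI Θ (I * J) = evalI Θ I + evalI Θ J := by
  unfold evalI
  rw [normalizedFactors_mul (by simpa using hI) (by simpa using hJ), Multiset.map_add,
    Multiset.sum_add]

theorem evalI_pow (Θ : Ideal R → ZMod p) (I : Ideal R) (n : ℕ) :
    evalI Θ (I ^ n) = n * evalI Θ I := by
  unfold evalI
  rw [normalizedFactors_pow, Multiset.map_nsmul, Multiset.sum_nsmul, nsmul_eq_mul]

theorem evalI_prime (Θ : Ideal R → ZMod p) {P : Ideal R} (hP : P.IsPrime) (hP0 : P ≠ ⊥) :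
    evalI Θ P = Θ P := by
  unfold evalI
  have hirr : Irreducible P := (Ideal.prime_of_isPrime hP0 hP).irreducible
  rw [normalizedFactors_irreducible hirr]
  simp

theorem evalI_prod {ι : Type*} (Θ : Ideal R → ZMod p) (s : Finset ι) (f : ι → Ideal R)
    (hf : ∀ i ∈ s, f i ≠ ⊥) : evalI Θ (∏ i ∈ s, f i) = ∑ i ∈ s, evalI Θ (f i) := by
  classical
  induction s using Finset.induction_on with
  | empty => simpa using evalI_one Θ
  | insert a s ha ih =>
    rw [Finset.prod_insert ha, Finset.sum_insert ha, evalI_mul Θ (hf a (Finset.mem_insert_self a s)),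
      ih (fun i hi => hf i (Finset.mem_insert_of_mem hi))]
    exact Finset.prod_ne_zero_iff.mpr (fun i hi => hf i (Finset.mem_insert_of_mem hi))

/-- `evalI` only depends on the values at the prime factors. -/
theorem evalI_congr {Θ Θ' : Ideal R → ZMod p} {I : Ideal R}
    (h : ∀ P : Ideal R, P.IsPrime → P ≠ ⊥ → I ≤ P → Θ P = Θ' P) : evalI Θ I = evalI Θ' I := by
  unfold evalI
  congr 1
  apply Multiset.map_congr rfl
  intro P hP
  have hprime : Prime P := prime_of_normalized_factor P hP
  exact h P (Ideal.isPrime_of_prime hprime) hprime.ne_zero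
    (Ideal.le_of_dvd (dvd_of_mem_normalizedFactors hP))

theorem evalI_add (Θ Θ' : Ideal R → ZMod p) (I : Ideal R) :
    evalI (fun P => Θ P + Θ' P) I = evalI Θ I + evalI Θ' I := by
  unfold evalI
  rw [Multiset.sum_map_add]

theorem evalI_const_mul (c : ZMod p) (Θ : Ideal R → ZMod p) (I : Ideal R) :
    evalI (fun P => c * Θ P) I = c * evalI Θ I := by
  unfold evalI
  rw [Multiset.sum_map_mul_left]

/-- Induction principle: a property of nonzero ideals which holds for `⊤`, for nonzero primes
and is stable under products holds for all nonzero ideals. -/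
theorem ideal_induction {C : Ideal R → Prop} (h1 : C ⊤)
    (hprime : ∀ P : Ideal R, P.IsPrime → P ≠ ⊥ → C P)
    (hmul : ∀ I J : Ideal R, I ≠ ⊥ → J ≠ ⊥ → C I → C J → C (I * J)) :
    ∀ I : Ideal R, I ≠ ⊥ → C I := by
  intro I hI
  have key : ∀ s : Multiset (Ideal R), (∀ P ∈ s, Prime P) → C s.prod ∧ s.prod ≠ ⊥ := by
    intro s
    induction s using Multiset.induction_on with
    | empty => intro _; simpa [Ideal.one_eq_top] using h1
    | cons a s ih =>
      intro hs
      have ha : Prime a := hs a (Multiset.mem_cons_self a s)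
      have hs' := ih (fun P hP => hs P (Multiset.mem_cons_of_mem hP))
      rw [Multiset.prod_cons]
      refine ⟨hmul a s.prod ha.ne_zero hs'.2 (hprime a (Ideal.isPrime_of_prime ha) ha.ne_zero) hs'.1,
        mul_ne_zero ha.ne_zero hs'.2⟩
  have h2 := key (normalizedFactors I) (fun P hP => prime_of_normalized_factor P hP)
  have h3 : (normalizedFactors I).prod = I := by
    have := prod_normalizedFactors (a := I) (by simpa using hI)
    exact associated_iff_eq.mp this
  rw [h3] at h2
  exact h2.1

/-- Transport of `evalI` along a multiplicative map `N` of ideals (e.g. the relative norm):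
if `Θ' P = evalI Θ (N P)` on primes then `evalI Θ' I = evalI Θ (N I)` for all nonzero `I`. -/
theorem evalI_comp {S : Type*} [CommRing S] [IsDedekindDomain S]
    (Θ : Ideal R → ZMod p) (N : Ideal S →*₀ Ideal R) (hN : ∀ I : Ideal S, I ≠ ⊥ → N I ≠ ⊥)
    (I : Ideal S) (hI : I ≠ ⊥) :
    evalI (fun P => evalI Θ (N P)) I = evalI Θ (N I) := by
  revert I
  apply ideal_induction
  · rw [evalI_top, ← Ideal.one_eq_top, map_one, evalI_one]
  · intro P hP hP0
    rw [evalI_prime _ hP hP0]
  · intro I J hI hJ h1 h2
    rw [evalI_mul _ hI hJ, map_mul, evalI_mul _ (hN I hI) (hN J hJ), h1, h2]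

end Fermat.Agent.S14C.EvalI
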