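import Fermat.Agent.S14C.FIX.Plan
import Fermat.Agent.S14C.SI.KummerExists

/-!
# S14C : the first inequality `FIX p`, assembled from the leaves of `FIX/Plan.lean`

Design (helper36).  Suppose no `Θ` of the X-space of `(K, α, m)` is nonzero at a prime not
dividing `m`.
1. (`DualClassStatement`) Duality in the finite group `G = ClassGroup (𝓞 K)`: with `H` the subgroup
   generated by the classes of the split primes, `G / H` has order `n'` prime to `p` (otherwise a
   nonzero homomorphism `G / H → ZMod p` gives a `Θ` in the X-space, nonzero at some prime not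
   dividing `m`, because every class contains an integral ideal coprime to `m`).
2. (`DivisorFormStatement`) Finitely many split primes `S0` generate `H`; for every divisor `D`,
   `n' • D` is principal outside `S0`.
3. (`LocalStatement`, `SplitLocPowStatement`) `α` is locally a `p`-th power at the primes of
   `S := S0 ∪ {v ∣ p}`, so each of them has `p` primes above it in `N = K(α^{1/p})`
   (`KummerSplitStatement`); outside `S` the extension is unramified (`KummerUnr`).
4. (`H1TrivialStatement`) A norm-one `S_N`-unit `ε` is `σ x / x` (Hilbert 90); the divisor of `x`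
   outside `S_N` descends to `K`, so `x ^ n' / c` is an `S_N`-unit and `ε ^ n' ∈ (σ - 1) E`;
   always `ε ^ p = ∏ ε / σ^j ε ∈ (σ - 1) E`; hence `ε ∈ (σ - 1) E`.
5. (`CoreStatement`) The Herbrand quotient of the `S_N`-units (`SUnitHerbrand.sUnit_herbrand`
   with `i = 0`) gives `h0 * p = h1 = 1`: absurd.
-/

set_option autoImplicit false

open NumberField IsDedekindDomain nonZeroDivisors

namespace Fermat.Agent.S14C.FIXAsm

open Fermat.Agent.S14C.SIDefs hiding sym
open Fermat.Agent.S14C.ClaimBPlan Fermat.Agent.S14C.FIXPlan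

/-- `FIX p` from the leaves of `FIX/Plan.lean` and the Kummer splitting statement. -/
theorem fix_of_leaves {p : ℕ} [Fact p.Prime] (hp2 : p ≠ 2)
    (hD : DualClassStatement p) (hDF : DivisorFormStatement) (hL : LocalStatement p)
    (hSL : SplitLocPowStatement p) (hC : CoreStatement) (hSplit : KummerSplitStatement) :
    FIX p := by
  intro K _ _ _ ζ α m hζ hα0 hα hsing hloc hm hpm hαm
  by_contra hno
  have hno' : ∀ Θ : Ideal (𝓞 K) → ZMod p, InX p ζ α m Θ →
      ∀ P : Ideal (𝓞 K), P.IsPrime → P ≠ ⊥ → (m : 𝓞 K) ∉ P → Θ P = 0 := by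
    intro Θ hΘ P hP hP0 hmP
    by_contra h
    exact hno ⟨Θ, hΘ, P, hP, hP0, hmP, h⟩
  obtain ⟨n', hn', hgen⟩ := hD K ζ α m hm hno'
  obtain ⟨S0, hS0T, hdiv⟩ := hDF K n' (splitPrimes p ζ α m) hgen
  obtain ⟨hsingv, hlocp⟩ := hL K ζ α hζ hα0 hsing hloc
  have hζK : IsPrimitiveRoot (ζ : K) p :=
    hζ.map_of_injective (f := algebraMap (𝓞 K) K) RingOfIntegers.coe_injective
  have hαK : ∀ b : K, b ^ p ≠ (α : K) := fun b hb => hα ⟨b, hb.symm⟩
  have hα0K : (α : K) ≠ 0 := by simpa using hα0
  obtain ⟨N, _, _, _, _, θ, hdeg, hθ⟩ :=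
    Fermat.Agent.S14C.KummerExists.kummerExists K p (ζ : K) hζK (α : K) hαK
  refine hC K p (ζ : K) (α : K) N hp2 hζK hα0K hαK hdeg θ hθ hsingv hlocp S0 n' ?_ hn' hdiv hSplit
  intro v hv
  have hmv : (m : 𝓞 K) ∉ v.asIdeal := (hS0T v hv).1
  refine hSL K ζ α v hζ ?_ ?_ (hS0T v hv).2
  · intro hpv
    obtain ⟨k, rfl⟩ := hpm
    apply hmv
    rw [Nat.cast_mul]
    exact v.asIdeal.mul_mem_right _ hpv
  · intro hαv
    exact hmv (hαm v.asIdeal v.isPrime hαv)

end Fermat.Agent.S14C.FIXAsm
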