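/-
S14 (team T2, "CFT-light"), block [SI-Hq] (B file): the Herbrand quotient of a finitely generated
module over a cyclic group of prime order.  Owner: helper49.  Mathlib only.

Main results (namespace `Fermat.Agent.S14C.HerbrandB`):

* `index_eq_map_mul_ker`      : `[A : B] = [φ A : φ B] * [ker φ : B ∩ ker φ]`.
* `herbrand_of_finiteIndex`   : invariance of the Herbrand quotient under passage to a subgroup of
                                finite index (elementary index computation, no hexagon).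
* `index_range_sub_one_pow`   : `M` finitely generated torsion-free with `1 + t + ⋯ + t^(p-1) = 0`:
                                `[M : (t - 1) M]^(p-1) = p ^ rank M`.
* `herbrand_core`             : additive-endomorphism form of the main identity.
* `herbrand_prime`            : EXPORT (board post #763): for `A` a finitely generated abelian
                                group, `τ : A →ₗ[ℤ] A` with `τ ^ p = 1` (`p` prime), `D = τ - 1`,
                                `N = 1 + τ + ⋯ + τ^(p-1)`, `a = rank (ker D)`: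
                                `(p - 1) ∣ rank A - a` and, with `c = (rank A - a) / (p - 1)`,
                                `[ker D : im N] * p ^ c = [ker N : im D] * p ^ a`, indices finite.
-/
import Mathlib

set_option autoImplicit false

namespace Fermat.Agent.S14C.HerbrandB

open Polynomial

section Index

variable {A A' : Type*} [AddCommGroup A] [AddCommGroup A']

/-- The index lemma: `[A : B] = [φ A : φ B] * [ker φ : B ∩ ker φ]`. -/
theorem index_eq_map_mul_ker (φ : A →+ A') (B : AddSubgroup A) :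
    B.index = (B.map φ).relIndex φ.range * (B ⊓ φ.ker).relIndex φ.ker := by
  have h1 : (B.map φ).relIndex φ.range = (B ⊔ φ.ker).index := by
    have := AddSubgroup.relIndex_map_map φ B ⊤
    rw [← AddMonoidHom.range_eq_map] at this
    rw [this, top_sup_eq, AddSubgroup.relIndex_top_right]
  have h2 : (B ⊓ φ.ker).relIndex φ.ker = B.relIndex (B ⊔ φ.ker) := by
    rw [AddSubgroup.inf_relIndex_right, AddSubgroup.relIndex_sup_left]
  rw [h1, h2, mul_comm]
  exact (AddSubgroup.relIndex_mul_index (le_sup_left : B ≤ B ⊔ φ.ker)).symm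

variable (f g : A →+ A)

/-- Invariance of the Herbrand quotient under passage to a subgroup of finite index. -/
theorem herbrand_of_finiteIndex (hfg : ∀ x, f (g x) = 0) (hgf : ∀ x, g (f x) = 0)
    (B : AddSubgroup A) (hB : B.index ≠ 0) (hBf : B.map f ≤ B) (hBg : B.map g ≤ B) :
    g.range.relIndex f.ker * (B.map f).relIndex (B ⊓ g.ker) =
      f.range.relIndex g.ker * (B.map g).relIndex (B ⊓ f.ker) := by
  -- the four auxiliary indices
  have e3 := index_eq_map_mul_ker f B
  have e4 := index_eq_map_mul_ker g B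
  have hgr : g.range ≤ f.ker := by
    rintro _ ⟨x, rfl⟩; exact hfg x
  have hfr : f.range ≤ g.ker := by
    rintro _ ⟨x, rfl⟩; exact hgf x
  have hBg1 : B.map g ≤ g.range := AddSubgroup.map_le_range g B
  have hBf1 : B.map f ≤ f.range := AddSubgroup.map_le_range f B
  have hBg2 : B.map g ≤ B ⊓ f.ker := le_inf hBg (hBg1.trans hgr)
  have hBf2 : B.map f ≤ B ⊓ g.ker := le_inf hBf (hBf1.trans hfr)
  -- two ways of computing `[ker f : g B]`
  have e1 : (B.map g).relIndex g.range * g.range.relIndex f.ker =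
      (B.map g).relIndex (B ⊓ f.ker) * (B ⊓ f.ker).relIndex f.ker := by
    rw [AddSubgroup.relIndex_mul_relIndex _ _ _ hBg1 hgr,
      AddSubgroup.relIndex_mul_relIndex _ _ _ hBg2 inf_le_right]
  have e2 : (B.map f).relIndex f.range * f.range.relIndex g.ker =
      (B.map f).relIndex (B ⊓ g.ker) * (B ⊓ g.ker).relIndex g.ker := by
    rw [AddSubgroup.relIndex_mul_relIndex _ _ _ hBf1 hfr,
      AddSubgroup.relIndex_mul_relIndex _ _ _ hBf2 inf_le_right]
  set xf := (B.map f).relIndex f.range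
  set yf := (B ⊓ f.ker).relIndex f.ker
  set xg := (B.map g).relIndex g.range
  set yg := (B ⊓ g.ker).relIndex g.ker
  set h0A := g.range.relIndex f.ker
  set h1A := f.range.relIndex g.ker
  set h0B := (B.map g).relIndex (B ⊓ f.ker)
  set h1B := (B.map f).relIndex (B ⊓ g.ker)
  set n := B.index
  have hn : 0 < n := Nat.pos_of_ne_zero hB
  apply Nat.eq_of_mul_eq_mul_left hn
  calc n * (h0A * h1B) = (xg * h0A) * (h1B * yg) := by rw [e4]; ring
    _ = (h0B * yf) * (xf * h1A) := by rw [e1, e2]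
    _ = n * (h1A * h0B) := by rw [e3]; ring

/-- Finiteness of `[ker f : im g]` can be checked on a subgroup of finite index. -/
theorem relIndex_ne_zero_iff_of_finiteIndex (hfg : ∀ x, f (g x) = 0)
    (B : AddSubgroup A) (hB : B.index ≠ 0) (hBg : B.map g ≤ B) :
    g.range.relIndex f.ker ≠ 0 ↔ (B.map g).relIndex (B ⊓ f.ker) ≠ 0 := by
  have e3 := index_eq_map_mul_ker f B
  have e4 := index_eq_map_mul_ker g B
  have hgr : g.range ≤ f.ker := by
    rintro _ ⟨x, rfl⟩; exact hfg x
  have hBg1 : B.map g ≤ g.range := AddSubgroup.map_le_range g B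
  have hBg2 : B.map g ≤ B ⊓ f.ker := le_inf hBg (hBg1.trans hgr)
  have e1 : (B.map g).relIndex g.range * g.range.relIndex f.ker =
      (B.map g).relIndex (B ⊓ f.ker) * (B ⊓ f.ker).relIndex f.ker := by
    rw [AddSubgroup.relIndex_mul_relIndex _ _ _ hBg1 hgr,
      AddSubgroup.relIndex_mul_relIndex _ _ _ hBg2 inf_le_right]
  have hyf : (B ⊓ f.ker).relIndex f.ker ≠ 0 := by
    intro h; rw [h, mul_zero] at e3; exact hB e3
  have hxg : (B.map g).relIndex g.range ≠ 0 := by
    intro h; rw [h, zero_mul] at e4; exact hB e4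
  constructor
  · intro h h'
    rw [h', zero_mul] at e1
    exact (mul_ne_zero hxg h) e1
  · intro h h'
    rw [h', mul_zero] at e1
    exact (mul_ne_zero h hyf) e1.symm

end Index


section PolyId

variable (p : ℕ)

/-- `(X - 1)^(p-1) = Φ_p + p w` in `ℤ[X]`. -/
theorem exists_sub_one_pow_eq (hp : p.Prime) :
    ∃ w : ℤ[X], (X - 1 : ℤ[X]) ^ (p - 1) = (∑ i ∈ Finset.range p, X ^ i) + C (p : ℤ) * w := by
  have := Fact.mk hp
  have hmod : ((X - 1 : (ZMod p)[X])) ^ (p - 1) = ∑ i ∈ Finset.range p, X ^ i := by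
    have hX : (X - 1 : (ZMod p)[X]) ≠ 0 := by
      have := X_sub_C_ne_zero (1 : ZMod p)
      simpa using this
    apply mul_left_cancel₀ hX
    rw [mul_geom_sum, ← pow_succ', Nat.sub_add_cancel hp.one_le, sub_pow_char, one_pow]
  have hdvd : C (p : ℤ) ∣ (X - 1 : ℤ[X]) ^ (p - 1) - ∑ i ∈ Finset.range p, X ^ i := by
    rw [C_dvd_iff_dvd_coeff]
    intro i
    have h2 : (((X - 1 : ℤ[X]) ^ (p - 1) - ∑ i ∈ Finset.range p, X ^ i).map
        (Int.castRingHom (ZMod p))) = 0 := by
      simp only [Polynomial.map_sub, Polynomial.map_pow, Polynomial.map_sum, Polynomial.map_X,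
        Polynomial.map_one]
      rw [hmod, sub_self]
    have h3 := congrArg (fun q => q.coeff i) h2
    simp only [coeff_map, coeff_zero, eq_intCast] at h3
    exact (ZMod.intCast_zmod_eq_zero_iff_dvd _ p).mp h3
  obtain ⟨w, hw⟩ := hdvd
  exact ⟨w, by rw [← hw]; ring⟩

/-- `p = (X - 1)^(p-1) v + Φ_p t` in `ℤ[X]`. -/
theorem exists_prime_eq (hp : p.Prime) :
    ∃ v t : ℤ[X], (C (p : ℤ) : ℤ[X]) =
      (X - 1) ^ (p - 1) * v + (∑ i ∈ Finset.range p, X ^ i) * t := by
  obtain ⟨w, hw⟩ := exists_sub_one_pow_eq p hp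
  -- `w(1) = -1`
  have hw1 : (w + 1).IsRoot 1 := by
    have h := congrArg (fun q => q.eval 1) hw
    simp only [eval_pow, eval_sub, eval_X, eval_one, sub_self, eval_add, eval_finsetSum,
      one_pow, Finset.sum_const, Finset.card_range, eval_mul, eval_C, nsmul_eq_mul, mul_one] at h
    rw [zero_pow (by have := hp.two_le; omega)] at h
    have hp0 : (p : ℤ) ≠ 0 := by exact_mod_cast hp.ne_zero
    have : (p : ℤ) * (eval 1 w + 1) = 0 := by
      have h' : (0 : ℤ) = (p : ℤ) + (p : ℤ) * eval 1 w := by exact_mod_cast h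
      linear_combination -h'
    rcases mul_eq_zero.mp this with h0 | h0
    · exact absurd h0 hp0
    · simpa [IsRoot] using h0
  obtain ⟨w₁, hw₁⟩ := dvd_iff_isRoot.mpr hw1
  set x : ℤ[X] := X - 1 with hx
  set Φ : ℤ[X] := ∑ i ∈ Finset.range p, X ^ i with hΦ
  set y : ℤ[X] := x * w₁ with hy
  set S : ℤ[X] := ∑ j ∈ Finset.range (p - 1), y ^ j with hS
  have hgeo : (1 - y) * S = 1 - y ^ (p - 1) := mul_neg_geom_sum y (p - 1)
  have hw' : w = y - 1 := by
    have : w + 1 = (X - C 1) * w₁ := hw₁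
    rw [hy, hx]
    simp only [map_one] at this
    linear_combination this
  refine ⟨C (p : ℤ) * w₁ ^ (p - 1) - S, S, ?_⟩
  have hyp : y ^ (p - 1) = x ^ (p - 1) * w₁ ^ (p - 1) := by rw [hy, mul_pow]
  rw [hw'] at hw
  clear_value x Φ y S
  linear_combination S * hw + C (p : ℤ) * hyp - C (p : ℤ) * hgeo

end PolyId

section Cyclic

variable {M : Type*} [AddCommGroup M]

/-- `[M : φ^k M] = [M : φ M]^k` for injective `φ`. -/
theorem index_range_pow (φ : AddMonoid.End M) (hφ : Function.Injective φ) (k : ℕ) :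
    (φ ^ k).range.index = φ.range.index ^ k := by
  induction k with
  | zero =>
    have : (φ ^ 0).range = ⊤ := by
      rw [pow_zero]
      exact AddMonoidHom.range_eq_top.mpr (fun x => ⟨x, rfl⟩)
    rw [this, AddSubgroup.index_top, pow_zero]
  | succ k ih =>
    have : (φ ^ (k + 1)).range = (φ ^ k).range.map φ := by
      rw [pow_succ']
      ext x
      constructor
      · rintro ⟨y, rfl⟩
        exact ⟨(φ ^ k) y, ⟨y, rfl⟩, rfl⟩
      · rintro ⟨_, ⟨y, rfl⟩, rfl⟩
        exact ⟨y, rfl⟩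
    rw [this, AddSubgroup.index_map_of_injective _ hφ, ih, pow_succ]

/-- If `x` is fixed by `t` then `(∑ i < k, t^i) x = k • x`. -/
theorem geom_sum_apply_of_fixed (t : AddMonoid.End M) (x : M) (hx : t x = x) (k : ℕ) :
    (∑ i ∈ Finset.range k, t ^ i) x = k • x := by
  have hpow : ∀ i : ℕ, (t ^ i) x = x := by
    intro i
    induction i with
    | zero => rfl
    | succ i ih =>
      rw [pow_succ]
      show (t ^ i) (t x) = x
      rw [hx, ih]
  induction k with
  | zero => simp
  | succ k ih =>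
    rw [Finset.sum_range_succ]
    show (∑ i ∈ Finset.range k, t ^ i) x + (t ^ k) x = (k + 1) • x
    rw [ih, hpow, succ_nsmul]

variable {p : ℕ}

/-- For a finitely generated torsion-free module on which `1 + t + ⋯ + t^(p-1) = 0`:
`[M : (t - 1) M]^(p-1) = p ^ rank M`. -/
theorem index_range_sub_one_pow (hp : p.Prime) [Module.Finite ℤ M] [Module.IsTorsionFree ℤ M]
    (t : AddMonoid.End M) (ht : ∑ i ∈ Finset.range p, t ^ i = 0) :
    (t - 1).range.index ^ (p - 1) = p ^ Module.finrank ℤ M := by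
  have hinj : Function.Injective ⇑(t - 1) := by
    rw [injective_iff_map_eq_zero]
    intro x hx
    have hx' : t x = x := by
      have : t x - x = 0 := hx
      exact sub_eq_zero.mp this
    have h1 := geom_sum_apply_of_fixed t x hx' p
    rw [ht] at h1
    have h2 : (p : ℤ) • x = 0 := by
      rw [natCast_zsmul]; exact h1.symm
    rcases smul_eq_zero.mp h2 with h | h
    · exact absurd h (by exact_mod_cast hp.ne_zero)
    · exact h
  rw [← index_range_pow _ hinj, ← AddSubgroup.index_range_nsmul M p]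
  congr 1
  obtain ⟨w, hw⟩ := exists_sub_one_pow_eq p hp
  obtain ⟨v, u, hv⟩ := exists_prime_eq p hp
  have hw' := congrArg (aeval t) hw
  have hv' := congrArg (aeval t) hv
  simp only [map_pow, map_sub, aeval_X, map_one, map_add, map_sum, map_mul, map_natCast] at hw' hv'
  rw [ht] at hw' hv'
  rw [zero_add] at hw'
  rw [zero_mul, add_zero] at hv'
  ext x
  simp only [AddMonoidHom.mem_range, nsmulAddMonoidHom_apply]
  constructor
  · rintro ⟨y, rfl⟩
    refine ⟨aeval t w y, ?_⟩
    rw [hw']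
    show p • (aeval t w) y = (p : AddMonoid.End M) ((aeval t w) y)
    rw [AddMonoid.End.natCast_apply]
  · rintro ⟨y, rfl⟩
    refine ⟨aeval t v y, ?_⟩
    have h := congrArg (fun e : AddMonoid.End M => e y) hv'
    simp only [AddMonoid.End.natCast_apply] at h
    rw [h]
    rfl

end Cyclic

section Rank

variable {A : Type*} [AddCommGroup A] [Module.Finite ℤ A]

/-- Submodules `H ≤ K` with `m • K ≤ H` (`m ≠ 0`) have the same rank. -/
theorem finrank_eq_of_smul_le {H K : Submodule ℤ A} (hHK : H ≤ K) {m : ℕ} (hm : m ≠ 0)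
    (h : ∀ x ∈ K, m • x ∈ H) : Module.finrank ℤ H = Module.finrank ℤ K := by
  refine le_antisymm (Submodule.finrank_mono hHK) ?_
  let μ : ↥K →ₗ[ℤ] ↥H :=
    { toFun := fun x => ⟨m • (x : A), h x x.2⟩
      map_add' := fun x y => by ext; simp
      map_smul' := fun c x => by
        apply Subtype.ext
        show m • (c • (x : A)) = c • (m • (x : A))
        exact smul_comm m c (x : A) }
  have h1 := Submodule.finrank_quotient_add_finrank (LinearMap.ker μ)
  have h2 : Module.finrank ℤ (LinearMap.ker μ) = 0 := by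
    rw [Module.finrank_eq_zero_iff_isTorsion]
    intro x
    refine ⟨⟨(m : ℤ), mem_nonZeroDivisors_of_ne_zero (by exact_mod_cast hm)⟩, ?_⟩
    have hx : μ x.1 = 0 := x.2
    have hx' : m • ((x.1 : ↥K) : A) = 0 := congrArg (fun z : ↥H => (z : A)) hx
    ext
    simp only [Submonoid.mk_smul, natCast_zsmul]
    simpa using hx'
  have h3 : Module.finrank ℤ (↥K ⧸ LinearMap.ker μ) = Module.finrank ℤ (LinearMap.range μ) :=
    (μ.quotKerEquivRange).finrank_eq
  have h4 : Module.finrank ℤ (LinearMap.range μ) ≤ Module.finrank ℤ ↥H := Submodule.finrank_le _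
  omega

/-- The rank of a direct sum of two submodules. -/
theorem finrank_sup_of_inf_eq_bot {H K : Submodule ℤ A} (h : H ⊓ K = ⊥) :
    Module.finrank ℤ ↥(H ⊔ K) = Module.finrank ℤ H + Module.finrank ℤ K := by
  have h1 := Submodule.rank_sup_add_rank_inf_eq H K
  rw [h, rank_bot, add_zero] at h1
  rw [← Module.finrank_eq_rank, ← Module.finrank_eq_rank, ← Module.finrank_eq_rank] at h1
  exact_mod_cast h1

end Rank

section Main

variable {A : Type*} [AddCommGroup A] [Module.Finite ℤ A]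

variable (A) in
/-- There is `n ≠ 0` killing all torsion elements of a finitely generated abelian group. -/
theorem exists_torsion_exponent :
    ∃ n : ℕ, n ≠ 0 ∧ ∀ (x : A) (m : ℕ), m ≠ 0 → m • x = 0 → n • x = 0 := by
  have hfin : Finite (Submodule.torsion ℤ A) :=
    Module.finite_of_fg_torsion _ (Submodule.torsion_isTorsion (R := ℤ) (M := A))
  refine ⟨Nat.card (Submodule.torsion ℤ A), Nat.card_pos.ne', fun x m hm hx => ?_⟩
  have hxT : x ∈ Submodule.torsion ℤ A := by
    rw [Submodule.mem_torsion_iff]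
    refine ⟨⟨(m : ℤ), mem_nonZeroDivisors_of_ne_zero (by exact_mod_cast hm)⟩, ?_⟩
    show (m : ℤ) • x = 0
    rw [natCast_zsmul]; exact hx
  have h := card_nsmul_eq_zero' (G := Submodule.torsion ℤ A) (x := ⟨x, hxT⟩)
  exact congrArg Subtype.val h

/-- A subgroup containing `m • A` (`m ≠ 0`) has finite index. -/
theorem index_ne_zero_of_nsmul_mem (B : AddSubgroup A) {m : ℕ} (hm : m ≠ 0)
    (h : ∀ x : A, m • x ∈ B) : B.index ≠ 0 := by
  obtain ⟨k, π, hπ⟩ := Module.Finite.exists_fin' ℤ A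
  have h1 : (B.comap π.toAddMonoidHom).index = B.index :=
    AddSubgroup.index_comap_of_surjective B hπ
  have h2 : (nsmulAddMonoidHom (α := Fin k → ℤ) m).range ≤ B.comap π.toAddMonoidHom := by
    rintro _ ⟨y, rfl⟩
    show π (m • y) ∈ B
    rw [map_nsmul]; exact h _
  have h3 := AddSubgroup.index_range_nsmul (Fin k → ℤ) m
  have h4 := AddSubgroup.index_dvd_of_le h2
  rw [← h1]
  intro h0
  rw [h0, h3] at h4
  exact (pow_ne_zero _ hm) (Nat.eq_zero_of_zero_dvd h4)

omit [Module.Finite ℤ A] in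
/-- A submodule without nonzero torsion elements is torsion-free. -/
theorem isTorsionFree_of_nsmul (H : Submodule ℤ A)
    (h : ∀ y ∈ H, ∀ m : ℕ, m ≠ 0 → m • y = 0 → y = 0) : Module.IsTorsionFree ℤ H := by
  refine Module.IsTorsionFree.of_smul_eq_zero fun r y hry => ?_
  by_cases hr : r = 0
  · exact Or.inl hr
  · right
    apply Subtype.ext
    apply h y.1 y.2 r.natAbs (Int.natAbs_ne_zero.mpr hr)
    have h1 : r • (y : A) = 0 := congrArg Subtype.val hry
    rcases Int.natAbs_eq r with h2 | h2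
    · rw [h2, natCast_zsmul] at h1; exact h1
    · rw [h2, neg_smul, neg_eq_zero, natCast_zsmul] at h1; exact h1

end Main

section Core

variable {A : Type*} [AddCommGroup A] [Module.Finite ℤ A]

/-- The Herbrand index identity for an endomorphism `s` of prime order `p` of a finitely
generated abelian group; `F = s - 1` and `G = 1 + s + ⋯ + s^(p-1)` are given as plain additive
homomorphisms. -/
theorem herbrand_core {p : ℕ} (hp : p.Prime) (s : AddMonoid.End A) (hs : s ^ p = 1)
    (F G : A →+ A) (hF : ∀ x, F x = (s - 1) x)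
    (hG : ∀ x, G x = (∑ i ∈ Finset.range p, s ^ i) x) :
    ∃ c : ℕ, Module.finrank ℤ A = Module.finrank ℤ F.ker + (p - 1) * c ∧
      G.range.relIndex F.ker ≠ 0 ∧ F.range.relIndex G.ker ≠ 0 ∧
      G.range.relIndex F.ker * p ^ c = F.range.relIndex G.ker * p ^ Module.finrank ℤ F.ker := by
  have hfg : (s - 1) * (∑ i ∈ Finset.range p, s ^ i) = 0 := by rw [mul_geom_sum, hs, sub_self]
  have hgf : (∑ i ∈ Finset.range p, s ^ i) * (s - 1) = 0 := by rw [geom_sum_mul, hs, sub_self]
  have hfg' : ∀ x, F (G x) = 0 := fun x => by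
    rw [hF, hG]; exact congrArg (fun e : AddMonoid.End A => e x) hfg
  have hgf' : ∀ x, G (F x) = 0 := fun x => by
    rw [hG, hF]; exact congrArg (fun e : AddMonoid.End A => e x) hgf
  have hfx : ∀ x, F x = s x - x := fun x => hF x
  -- on `ker F`, `G = p`
  have hgker : ∀ x, F x = 0 → G x = p • x := by
    intro x hx
    have hx' : s x = x := sub_eq_zero.mp ((hfx x).symm.trans hx)
    rw [hG]
    exact geom_sum_apply_of_fixed s x hx' p
  obtain ⟨n, hn0, hn⟩ := exists_torsion_exponent A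
  set B₀ : AddSubgroup A := F.ker.map (nsmulAddMonoidHom n) with hB₀
  set B₁ : AddSubgroup A := G.ker.map (nsmulAddMonoidHom n) with hB₁
  have hB₀f : B₀ ≤ F.ker := by
    rintro _ ⟨x, hx, rfl⟩
    have hx' : F x = 0 := hx
    show F (n • x) = 0
    rw [map_nsmul, hx', nsmul_zero]
  have hB₁g : B₁ ≤ G.ker := by
    rintro _ ⟨x, hx, rfl⟩
    have hx' : G x = 0 := hx
    show G (n • x) = 0
    rw [map_nsmul, hx', nsmul_zero]
  have htf₀ : ∀ y ∈ B₀, ∀ m : ℕ, m ≠ 0 → m • y = 0 → y = 0 := by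
    rintro _ ⟨x, -, rfl⟩ m hm hmy
    show n • x = 0
    apply hn x (m * n) (mul_ne_zero hm hn0)
    rw [mul_nsmul']; exact hmy
  have htf₁ : ∀ y ∈ B₁, ∀ m : ℕ, m ≠ 0 → m • y = 0 → y = 0 := by
    rintro _ ⟨x, -, rfl⟩ m hm hmy
    show n • x = 0
    apply hn x (m * n) (mul_ne_zero hm hn0)
    rw [mul_nsmul']; exact hmy
  set B : AddSubgroup A := B₀ ⊔ B₁ with hB
  have hnp : ∀ x : A, (n * p) • x ∈ B := by
    intro x
    have h1 : G x ∈ F.ker := hfg' x
    have h2 : p • x - G x ∈ G.ker := by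
      show G (p • x - G x) = 0
      rw [map_sub, map_nsmul, hgker (G x) (hfg' x), sub_self]
    have h3 : (n * p) • x = n • G x + n • (p • x - G x) := by
      rw [← nsmul_add, add_sub_cancel, mul_nsmul']
    rw [h3]
    exact B.add_mem (AddSubgroup.mem_sup_left ⟨G x, h1, rfl⟩)
      (AddSubgroup.mem_sup_right ⟨_, h2, rfl⟩)
  have hBidx : B.index ≠ 0 := index_ne_zero_of_nsmul_mem B (mul_ne_zero hn0 hp.ne_zero) hnp
  have hBf : B.map F ≤ B := by
    rw [hB, AddSubgroup.map_sup]
    apply sup_le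
    · rintro _ ⟨y, hy, rfl⟩
      rw [show F y = 0 from hB₀f hy]; exact AddSubgroup.zero_mem _
    · rintro _ ⟨_, ⟨x, hx, rfl⟩, rfl⟩
      apply AddSubgroup.mem_sup_right
      refine ⟨F x, hgf' x, ?_⟩
      show n • F x = F (n • x)
      rw [map_nsmul]
  have hBg : B.map G ≤ B := by
    rw [hB, AddSubgroup.map_sup]
    apply sup_le
    · rintro _ ⟨_, ⟨x, hx, rfl⟩, rfl⟩
      apply AddSubgroup.mem_sup_left
      refine ⟨G x, hfg' x, ?_⟩
      show n • G x = G (n • x)
      rw [map_nsmul]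
    · rintro _ ⟨y, hy, rfl⟩
      rw [show G y = 0 from hB₁g hy]; exact AddSubgroup.zero_mem _
  have hBker_f : B ⊓ F.ker = B₀ := by
    apply le_antisymm
    · rintro z ⟨hzB, hzf⟩
      obtain ⟨b₀, hb₀, b₁, hb₁, rfl⟩ := AddSubgroup.mem_sup.mp hzB
      have h1 : F b₁ = 0 := by
        have h : F (b₀ + b₁) = 0 := hzf
        rw [map_add, show F b₀ = 0 from hB₀f hb₀, zero_add] at h; exact h
      have h2 : p • b₁ = 0 := by rw [← hgker b₁ h1]; exact hB₁g hb₁
      have h3 : b₁ = 0 := htf₁ b₁ hb₁ p hp.ne_zero h2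
      rw [h3, add_zero]; exact hb₀
    · exact le_inf le_sup_left hB₀f
  have hBker_g : B ⊓ G.ker = B₁ := by
    apply le_antisymm
    · rintro z ⟨hzB, hzg⟩
      obtain ⟨b₀, hb₀, b₁, hb₁, rfl⟩ := AddSubgroup.mem_sup.mp hzB
      have h1 : G b₀ = 0 := by
        have h : G (b₀ + b₁) = 0 := hzg
        rw [map_add, show G b₁ = 0 from hB₁g hb₁, add_zero] at h; exact h
      have h2 : p • b₀ = 0 := by rw [← hgker b₀ (hB₀f hb₀)]; exact h1
      have h3 : b₀ = 0 := htf₀ b₀ hb₀ p hp.ne_zero h2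
      rw [h3, zero_add]; exact hb₁
    · exact le_inf le_sup_right hB₁g
  have hBmap_g : B.map G = B₀.map (nsmulAddMonoidHom p) := by
    rw [hB, AddSubgroup.map_sup]
    have h1 : B₁.map G = ⊥ := by
      rw [eq_bot_iff]
      rintro _ ⟨y, hy, rfl⟩
      exact AddSubgroup.mem_bot.mpr (hB₁g hy)
    have h2 : B₀.map G = B₀.map (nsmulAddMonoidHom p) := by
      ext z; constructor
      · rintro ⟨y, hy, rfl⟩; exact ⟨y, hy, (hgker y (hB₀f hy)).symm⟩
      · rintro ⟨y, hy, rfl⟩; exact ⟨y, hy, hgker y (hB₀f hy)⟩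
    rw [h1, h2, sup_bot_eq]
  have hBmap_f : B.map F = B₁.map F := by
    rw [hB, AddSubgroup.map_sup]
    have h1 : B₀.map F = ⊥ := by
      rw [eq_bot_iff]
      rintro _ ⟨y, hy, rfl⟩
      exact AddSubgroup.mem_bot.mpr (hB₀f hy)
    rw [h1, bot_sup_eq]
  -- `s` preserves `B₁`
  have hsB₁ : ∀ x ∈ B₁, s x ∈ B₁ := by
    rintro _ ⟨y, hy, rfl⟩
    have hy' : G y = 0 := hy
    refine ⟨s y, ?_, ?_⟩
    · show G (s y) = 0
      have h1 : G (s y) - G y = 0 := by
        have h := hgf' y
        rw [hfx, map_sub] at h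
        exact h
      rw [sub_eq_zero.mp h1, hy']
    · show n • s y = s (n • y)
      exact (map_nsmul s n y).symm
  -- module structures on `B₀`, `B₁`
  have i0 : Module.IsTorsionFree ℤ ↥(AddSubgroup.toIntSubmodule B₀) :=
    isTorsionFree_of_nsmul _ htf₀
  have i1' : Module.IsTorsionFree ℤ ↥(AddSubgroup.toIntSubmodule B₁) :=
    isTorsionFree_of_nsmul _ htf₁
  have i1 : Module.IsTorsionFree ℤ ↥B₁ := i1'
  have j1 : Module.Finite ℤ ↥B₁ :=
    (inferInstance : Module.Finite ℤ ↥(AddSubgroup.toIntSubmodule B₁))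
  -- the index of `p B₀` in `B₀`
  have h0B : (B₀.map (nsmulAddMonoidHom p)).relIndex B₀ = p ^ Module.finrank ℤ B₀ :=
    AddSubgroup.relIndex_map_nsmul p B₀
  -- the restriction of `s` to `B₁`
  let t : AddMonoid.End ↥B₁ :=
    { toFun := fun x => ⟨s x, hsB₁ x x.2⟩
      map_zero' := Subtype.ext (map_zero s)
      map_add' := fun x y => Subtype.ext (map_add s (x : A) (y : A)) }
  have htpow : ∀ (k : ℕ) (x : ↥B₁), (((t ^ k) x : ↥B₁) : A) = (s ^ k) (x : A) := by
    intro k
    induction k with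
    | zero => intro x; rfl
    | succ k ih =>
      intro x
      rw [pow_succ, pow_succ]
      show (((t ^ k) (t x) : ↥B₁) : A) = (s ^ k) (s (x : A))
      rw [ih]
      rfl
  have htsum : ∀ (k : ℕ) (x : ↥B₁),
      (((∑ i ∈ Finset.range k, t ^ i) x : ↥B₁) : A) = (∑ i ∈ Finset.range k, s ^ i) (x : A) := by
    intro k
    induction k with
    | zero => intro x; simp
    | succ k ih =>
      intro x
      rw [Finset.sum_range_succ, Finset.sum_range_succ]
      show (((∑ i ∈ Finset.range k, t ^ i) x : ↥B₁) : A) + (((t ^ k) x : ↥B₁) : A) =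
        (∑ i ∈ Finset.range k, s ^ i) (x : A) + (s ^ k) (x : A)
      rw [ih, htpow]
  have ht : ∑ i ∈ Finset.range p, t ^ i = 0 := by
    apply AddMonoidHom.ext
    intro x
    apply Subtype.ext
    exact (htsum p x).trans ((hG (x : A)).symm.trans (hB₁g x.2))
  have hK1 := index_range_sub_one_pow hp t ht
  have hd : (B₁.map F).relIndex B₁ = (t - 1).range.index := by
    have : (B₁.map F).addSubgroupOf B₁ = (t - 1).range := by
      ext x
      rw [AddSubgroup.mem_addSubgroupOf]
      constructor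
      · rintro ⟨y, hy, hyx⟩
        refine ⟨⟨y, hy⟩, Subtype.ext ?_⟩
        show s y - y = x
        rw [← hfx]; exact hyx
      · rintro ⟨y, rfl⟩
        exact ⟨y, y.2, hfx y⟩
    rw [AddSubgroup.relIndex, this]
  -- ranks
  have r0 : Module.finrank ℤ ↥B₀ = Module.finrank ℤ ↥F.ker :=
    finrank_eq_of_smul_le (H := AddSubgroup.toIntSubmodule B₀)
      (K := AddSubgroup.toIntSubmodule F.ker) hB₀f hn0 (fun x hx => ⟨x, hx, rfl⟩)
  have rB : Module.finrank ℤ ↥B = Module.finrank ℤ A := by
    have h := finrank_eq_of_smul_le (H := AddSubgroup.toIntSubmodule B) (K := ⊤) le_top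
      (mul_ne_zero hn0 hp.ne_zero) (fun x _ => hnp x)
    rw [finrank_top] at h
    exact h
  have rsum : Module.finrank ℤ ↥B = Module.finrank ℤ ↥B₀ + Module.finrank ℤ ↥B₁ := by
    have hinf : AddSubgroup.toIntSubmodule B₀ ⊓ AddSubgroup.toIntSubmodule B₁ = ⊥ := by
      rw [eq_bot_iff]
      rintro z ⟨hz0, hz1⟩
      have h1 : G z = 0 := hB₁g hz1
      have h2 : p • z = 0 := by rw [← hgker z (hB₀f hz0)]; exact h1
      exact (Submodule.mem_bot ℤ).mpr (htf₀ z hz0 p hp.ne_zero h2)
    have h := finrank_sup_of_inf_eq_bot hinf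
    rw [← map_sup] at h
    exact h
  -- conclusion
  set d := (B₁.map F).relIndex B₁ with hd'
  set r₁ := Module.finrank ℤ ↥B₁ with hr₁
  have hp1 : p - 1 ≠ 0 := by have := hp.two_le; omega
  have hdp : d ^ (p - 1) = p ^ r₁ := by rw [hd]; exact hK1
  obtain ⟨j, -, hj⟩ : ∃ j ≤ r₁, d = p ^ j :=
    (Nat.dvd_prime_pow hp).mp (hdp ▸ dvd_pow_self d hp1)
  have hjr : j * (p - 1) = r₁ := by
    rw [hj, ← pow_mul] at hdp
    exact Nat.pow_right_injective hp.two_le hdp
  have main := herbrand_of_finiteIndex F G hfg' hgf' B hBidx hBf hBg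
  rw [hBmap_f, hBker_g, hBmap_g, hBker_f, h0B, r0, ← hd', hj] at main
  refine ⟨j, ?_, ?_, ?_, main⟩
  · rw [← rB, rsum, r0, ← hjr, mul_comm]
  · rw [relIndex_ne_zero_iff_of_finiteIndex F G hfg' B hBidx hBg, hBmap_g, hBker_f, h0B]
    exact pow_ne_zero _ hp.ne_zero
  · rw [relIndex_ne_zero_iff_of_finiteIndex G F hgf' B hBidx hBf, hBmap_f, hBker_g, ← hd', hj]
    exact pow_ne_zero _ hp.ne_zero

end Core

section Export

variable {A : Type*} [AddCommGroup A] [Module.Finite ℤ A]

/-- **Herbrand index identity** for a cyclic group of prime order `p` acting on a finitely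
generated abelian group `A` (exact statement of board post #763):
with `N = 1 + τ + ⋯ + τ^(p-1)`, `D = τ - 1`, `a = rank (ker D)` and `c = (rank A - a) / (p - 1)`,
`[ker D : im N] * p ^ c = [ker N : im D] * p ^ a`, both indices being finite. -/
theorem herbrand_prime {p : ℕ} (hp : p.Prime) (τ : A →ₗ[ℤ] A) (hτ : τ ^ p = 1) :
    let N : A →ₗ[ℤ] A := ∑ i ∈ Finset.range p, τ ^ i
    let D : A →ₗ[ℤ] A := τ - 1
    (p - 1) ∣ (Module.finrank ℤ A - Module.finrank ℤ (LinearMap.ker D)) ∧
    (LinearMap.range N).toAddSubgroup.relIndex (LinearMap.ker D).toAddSubgroup ≠ 0 ∧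
    (LinearMap.range D).toAddSubgroup.relIndex (LinearMap.ker N).toAddSubgroup ≠ 0 ∧
    (LinearMap.range N).toAddSubgroup.relIndex (LinearMap.ker D).toAddSubgroup *
        p ^ ((Module.finrank ℤ A - Module.finrank ℤ (LinearMap.ker D)) / (p - 1)) =
      (LinearMap.range D).toAddSubgroup.relIndex (LinearMap.ker N).toAddSubgroup *
        p ^ Module.finrank ℤ (LinearMap.ker D) := by
  intro N D
  let e := (addMonoidEndRingEquivInt A).symm
  have he : ∀ (φ : A →ₗ[ℤ] A) (x : A), (e φ) x = φ x := fun φ x => rfl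
  have hs : (e τ) ^ p = 1 := by rw [← map_pow, hτ, map_one]
  have hF : ∀ x, D.toAddMonoidHom x = (e τ - 1) x := fun x => rfl
  have hG : ∀ x, N.toAddMonoidHom x = (∑ i ∈ Finset.range p, (e τ) ^ i) x := by
    intro x
    have h1 : (∑ i ∈ Finset.range p, (e τ) ^ i) = e N := by
      simp only [N, map_sum, map_pow]
    rw [h1]
    rfl
  obtain ⟨c, hc, h0, h1, h2⟩ :=
    herbrand_core hp (e τ) hs D.toAddMonoidHom N.toAddMonoidHom hF hG
  have kD : (LinearMap.ker D).toAddSubgroup = D.toAddMonoidHom.ker := by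
    ext x; exact Iff.rfl
  have kN : (LinearMap.ker N).toAddSubgroup = N.toAddMonoidHom.ker := by
    ext x; exact Iff.rfl
  have rD : (LinearMap.range D).toAddSubgroup = D.toAddMonoidHom.range := by
    ext x; exact Iff.rfl
  have rN : (LinearMap.range N).toAddSubgroup = N.toAddMonoidHom.range := by
    ext x; exact Iff.rfl
  have hrk : Module.finrank ℤ ↥(LinearMap.ker D) = Module.finrank ℤ ↥D.toAddMonoidHom.ker := by
    have h : LinearMap.ker D = AddSubgroup.toIntSubmodule D.toAddMonoidHom.ker := by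
      ext x; exact Iff.rfl
    rw [h]
    rfl
  rw [kD, kN, rD, rN, hrk]
  have hp1 : 0 < p - 1 := by have := hp.two_le; omega
  have hsub : Module.finrank ℤ A - Module.finrank ℤ ↥D.toAddMonoidHom.ker = (p - 1) * c := by
    rw [hc, Nat.add_sub_cancel_left]
  rw [hsub, Nat.mul_div_cancel_left c hp1]
  exact ⟨dvd_mul_right _ _, h0, h1, h2⟩

/-- `herbrand_prime` with the `let`-bound maps expanded. -/
theorem herbrand_prime' {p : ℕ} (hp : p.Prime) (τ : A →ₗ[ℤ] A) (hτ : τ ^ p = 1) :
    (p - 1) ∣ (Module.finrank ℤ A - Module.finrank ℤ (LinearMap.ker (τ - 1))) ∧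
    (LinearMap.range (∑ i ∈ Finset.range p, τ ^ i)).toAddSubgroup.relIndex
        (LinearMap.ker (τ - 1)).toAddSubgroup ≠ 0 ∧
    (LinearMap.range (τ - 1)).toAddSubgroup.relIndex
        (LinearMap.ker (∑ i ∈ Finset.range p, τ ^ i)).toAddSubgroup ≠ 0 ∧
    (LinearMap.range (∑ i ∈ Finset.range p, τ ^ i)).toAddSubgroup.relIndex
          (LinearMap.ker (τ - 1)).toAddSubgroup *
        p ^ ((Module.finrank ℤ A - Module.finrank ℤ (LinearMap.ker (τ - 1))) / (p - 1)) =
      (LinearMap.range (τ - 1)).toAddSubgroup.relIndex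
          (LinearMap.ker (∑ i ∈ Finset.range p, τ ^ i)).toAddSubgroup *
        p ^ Module.finrank ℤ (LinearMap.ker (τ - 1)) :=
  herbrand_prime hp τ hτ

/-- Corollary in the shape used for (S-)units: if `rank A = a + (p - 1) c` with
`a = rank (ker (τ - 1))`, then `[ker D : im N] * p ^ c = [ker N : im D] * p ^ a`. -/
theorem herbrand_prime_of_finrank {p : ℕ} (hp : p.Prime) (τ : A →ₗ[ℤ] A) (hτ : τ ^ p = 1)
    {a c : ℕ} (ha : Module.finrank ℤ (LinearMap.ker (τ - 1)) = a)
    (hc : Module.finrank ℤ A = a + (p - 1) * c) :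
    (LinearMap.range (∑ i ∈ Finset.range p, τ ^ i)).toAddSubgroup.relIndex
        (LinearMap.ker (τ - 1)).toAddSubgroup ≠ 0 ∧
    (LinearMap.range (τ - 1)).toAddSubgroup.relIndex
        (LinearMap.ker (∑ i ∈ Finset.range p, τ ^ i)).toAddSubgroup ≠ 0 ∧
    (LinearMap.range (∑ i ∈ Finset.range p, τ ^ i)).toAddSubgroup.relIndex
          (LinearMap.ker (τ - 1)).toAddSubgroup * p ^ c =
      (LinearMap.range (τ - 1)).toAddSubgroup.relIndex
          (LinearMap.ker (∑ i ∈ Finset.range p, τ ^ i)).toAddSubgroup * p ^ a := by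
  obtain ⟨-, h0, h1, h2⟩ := herbrand_prime' hp τ hτ
  have hp1 : 0 < p - 1 := by have := hp.two_le; omega
  rw [ha, hc, Nat.add_sub_cancel_left, Nat.mul_div_cancel_left c hp1] at h2
  exact ⟨h0, h1, h2⟩

end Export

end Fermat.Agent.S14C.HerbrandB
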