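/-
S14C, block [H1] (abstract core): Herbrand quotient of a cyclic group of prime order acting on
a finitely generated abelian group, by pure index arithmetic (no hexagon lemma).

* Part A: isogeny invariance for a pair of additive endomorphisms `f`, `g` with
  `f ∘ g = 0 = g ∘ f`.
* Part B: the free case.
* Part C: the general finitely generated case.
-/
import Mathlib

set_option autoImplicit false

namespace Fermat.Agent.S14C.HerbrandCore

open Module

/-! ### Part A: isogeny invariance -/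

section PartA

variable {A : Type*} [AddCommGroup A]

/-- `[A : B] = [ker f : ker f ∩ B] · [f A : f B]`. -/
theorem index_eq_relIndex_ker_mul (f : A →+ A) (B : AddSubgroup A) :
    B.index = B.relIndex f.ker * (B.map f).relIndex f.range := by
  have h1 : (B.map f).relIndex f.range = (B ⊔ f.ker).index := by
    rw [AddMonoidHom.range_eq_map, AddSubgroup.relIndex_map_map, top_sup_eq,
      AddSubgroup.relIndex_top_right]
  have h2 : B.relIndex f.ker = B.relIndex (B ⊔ f.ker) :=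
    (AddSubgroup.relIndex_sup_left (K := B) (H := f.ker)).symm
  rw [h1, h2, AddSubgroup.relIndex_mul_index le_sup_left]

variable (f g : A →+ A)

/-- The two "local" Herbrand indices of a stable subgroup `B`:
`h0 f g B = [ker f ∩ B : g B]`. -/
noncomputable def h0 (B : AddSubgroup A) : ℕ := (B.map g).relIndex (f.ker ⊓ B)

theorem h0_top : h0 f g ⊤ = g.range.relIndex f.ker := by
  rw [h0, inf_top_eq, ← AddMonoidHom.range_eq_map]

variable {f g}

/-- Key identity: `[g A : g B] · [ker f : g A] = [ker f ∩ B : g B] · [ker f : ker f ∩ B]`. -/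
theorem h0_mul_aux (hfg : ∀ x, f (g x) = 0) (B : AddSubgroup A) (hgB : B.map g ≤ B) :
    (B.map g).relIndex g.range * h0 f g ⊤ = h0 f g B * B.relIndex f.ker := by
  have hrange : g.range ≤ f.ker := by
    rintro _ ⟨x, rfl⟩
    exact hfg x
  have hmap : B.map g ≤ g.range := by
    rintro _ ⟨x, -, rfl⟩
    exact ⟨x, rfl⟩
  have hle : B.map g ≤ f.ker ⊓ B := le_inf (hmap.trans hrange) hgB
  rw [h0_top, h0, AddSubgroup.relIndex_mul_relIndex _ _ _ hmap hrange,
    ← AddSubgroup.inf_relIndex_left (H := f.ker) (K := B),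
    AddSubgroup.relIndex_mul_relIndex _ _ _ hle inf_le_left]

/-- **Isogeny invariance of the Herbrand quotient**, in product form:
`h⁰(A) · h¹(B) = h¹(A) · h⁰(B)` for a stable subgroup `B` of finite index. -/
theorem isogeny (hfg : ∀ x, f (g x) = 0) (hgf : ∀ x, g (f x) = 0) (B : AddSubgroup A)
    (hB : B.index ≠ 0) (hfB : B.map f ≤ B) (hgB : B.map g ≤ B) :
    h0 f g ⊤ * h0 g f B = h0 g f ⊤ * h0 f g B := by
  have e1 := h0_mul_aux hfg B hgB
  have e2 := h0_mul_aux hgf B hfB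
  have i1 := index_eq_relIndex_ker_mul f B
  have i2 := index_eq_relIndex_ker_mul g B
  set x := B.relIndex f.ker
  set y := (B.map f).relIndex f.range
  set z := B.relIndex g.ker
  set w := (B.map g).relIndex g.range
  set n := B.index
  have hn : 0 < n := Nat.pos_of_ne_zero hB
  have key : n * (h0 f g ⊤ * h0 g f B) = n * (h0 g f ⊤ * h0 f g B) := by
    calc n * (h0 f g ⊤ * h0 g f B) = (w * h0 f g ⊤) * (h0 g f B * z) := by
          rw [i2]; ring
      _ = (h0 f g B * x) * (y * h0 g f ⊤) := by rw [e1, e2]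
      _ = n * (h0 g f ⊤ * h0 f g B) := by rw [i1]; ring
  exact Nat.eq_of_mul_eq_mul_left hn key

/-- Finiteness transfers upwards. -/
theorem h0_top_ne_zero (hfg : ∀ x, f (g x) = 0) (B : AddSubgroup A)
    (hB : B.index ≠ 0) (hgB : B.map g ≤ B) (h : h0 f g B ≠ 0) : h0 f g ⊤ ≠ 0 := by
  have e1 := h0_mul_aux hfg B hgB
  have i1 := index_eq_relIndex_ker_mul f B
  have hx : B.relIndex f.ker ≠ 0 := by
    intro h0'
    rw [h0', zero_mul] at i1
    exact hB i1
  intro hz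
  rw [hz, mul_zero] at e1
  exact (mul_ne_zero h hx) e1.symm

end PartA

/-! ### General rank / index helpers for finitely generated abelian groups -/

section Helpers

variable {A : Type*} [AddCommGroup A] [Module.Finite ℤ A]

instance instFiniteAddSubgroup (H : AddSubgroup A) : Module.Finite ℤ H :=
  inferInstanceAs (Module.Finite ℤ (AddSubgroup.toIntSubmodule H))

theorem finrank_mono {H K : AddSubgroup A} (h : H ≤ K) : finrank ℤ H ≤ finrank ℤ K :=
  Submodule.finrank_mono (s := AddSubgroup.toIntSubmodule H) (t := AddSubgroup.toIntSubmodule K) h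

/-- Rank–nullity for an additive endomorphism. -/
theorem finrank_range_add_finrank_ker {A' : Type*} [AddCommGroup A'] (φ : A →+ A') :
    finrank ℤ φ.range + finrank ℤ φ.ker = finrank ℤ A := by
  have h1 := Submodule.finrank_quotient_add_finrank (LinearMap.ker φ.toIntLinearMap)
  have h2 := (φ.toIntLinearMap.quotKerEquivRange).finrank_eq
  have h3 : finrank ℤ (LinearMap.range φ.toIntLinearMap) = finrank ℤ φ.range := rfl
  have h4 : finrank ℤ (LinearMap.ker φ.toIntLinearMap) = finrank ℤ φ.ker := rfl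
  omega

/-- A torsion group has rank zero. -/
theorem finrank_eq_zero_of_torsion {M : Type*} [AddCommGroup M]
    (h : ∀ x : M, ∃ k : ℕ, k ≠ 0 ∧ k • x = 0) : finrank ℤ M = 0 := by
  have : Module.rank ℤ M = 0 := by
    rw [rank_eq_zero_iff]
    intro x
    obtain ⟨k, hk, hx⟩ := h x
    exact ⟨(k : ℤ), by exact_mod_cast hk, by simpa using hx⟩
  simp [finrank, this]

theorem finrank_map_nsmul (K : AddSubgroup A) (k : ℕ) (hk : k ≠ 0) :
    finrank ℤ (K.map (nsmulAddMonoidHom (α := A) k)) = finrank ℤ K := by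
  let φ : K →+ A := (nsmulAddMonoidHom (α := A) k).comp K.subtype
  have h1 := finrank_range_add_finrank_ker φ
  have h2 : φ.range = K.map (nsmulAddMonoidHom (α := A) k) := by
    rw [AddMonoidHom.range_comp, AddSubgroup.range_subtype]
  have h3 : finrank ℤ φ.ker = 0 := by
    apply finrank_eq_zero_of_torsion
    rintro ⟨x, hx⟩
    refine ⟨k, hk, ?_⟩
    have hx' : k • (x : A) = 0 := by simpa [φ] using hx
    apply Subtype.ext
    apply Subtype.ext
    simpa using hx'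
  rw [h2, h3, add_zero] at h1
  exact h1

theorem index_range_nsmul_ne_zero (k : ℕ) (hk : k ≠ 0) :
    (nsmulAddMonoidHom (α := A) k).range.index ≠ 0 := by
  set H := (nsmulAddMonoidHom (α := A) k).range with hH
  have hfin : Module.Finite ℤ (A ⧸ AddSubgroup.toIntSubmodule H) := inferInstance
  have htors : Module.IsTorsion ℤ (A ⧸ AddSubgroup.toIntSubmodule H) := by
    intro x
    induction x using Submodule.Quotient.induction_on with
    | H y =>
      refine ⟨⟨(k : ℤ), ?_⟩, ?_⟩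
      · exact mem_nonZeroDivisors_of_ne_zero (by exact_mod_cast hk)
      · change (k : ℤ) • (Submodule.Quotient.mk y : A ⧸ AddSubgroup.toIntSubmodule H) = 0
        rw [← Submodule.Quotient.mk_smul, Submodule.Quotient.mk_eq_zero]
        exact ⟨y, by simp⟩
  have : Finite (A ⧸ AddSubgroup.toIntSubmodule H) :=
    Module.finite_of_fg_torsion (A ⧸ AddSubgroup.toIntSubmodule H) htors
  have : Finite (A ⧸ H) := this
  exact AddSubgroup.index_ne_zero_of_finite

theorem exists_torsion_exponent :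
    ∃ m : ℕ, m ≠ 0 ∧ ∀ x : A, ∀ k : ℕ, k ≠ 0 → k • x = 0 → m • x = 0 := by
  have hN : IsNoetherian ℤ A := inferInstance
  have hfin : Module.Finite ℤ (Submodule.torsion ℤ A) := inferInstance
  have : Finite (Submodule.torsion ℤ A) :=
    Module.finite_of_fg_torsion (Submodule.torsion ℤ A) (Submodule.torsion_isTorsion)
  refine ⟨Nat.card (Submodule.torsion ℤ A), Nat.card_pos.ne', ?_⟩
  intro x k hk hx
  have hmem : x ∈ Submodule.torsion ℤ A := by
    rw [Submodule.mem_torsion_iff]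
    exact ⟨⟨(k : ℤ), mem_nonZeroDivisors_of_ne_zero (by exact_mod_cast hk)⟩, by simpa using hx⟩
  have := card_nsmul_eq_zero' (G := Submodule.torsion ℤ A) (x := ⟨x, hmem⟩)
  exact congrArg Subtype.val this

/-- A subgroup without torsion is free. -/
theorem free_of_torsionFree (H : AddSubgroup A)
    (h : ∀ x ∈ H, ∀ k : ℕ, k ≠ 0 → k • x = 0 → x = 0) :
    Module.Free ℤ (AddSubgroup.toIntSubmodule H) := by
  have : Module.IsTorsionFree ℤ (AddSubgroup.toIntSubmodule H) := by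
    apply Module.IsTorsionFree.of_smul_eq_zero
    rintro r ⟨x, hx⟩ hr
    by_cases hr0 : r = 0
    · exact Or.inl hr0
    · right
      have hr' : r • x = 0 := congrArg Subtype.val hr
      have hx0 : x = 0 := by
        apply h x hx r.natAbs (Int.natAbs_ne_zero.mpr hr0)
        rcases Int.natAbs_eq r with h1 | h1
        · rw [← natCast_zsmul, ← h1]; exact hr'
        · rw [← natCast_zsmul]
          have : ((r.natAbs : ℤ)) = -r := by omega
          rw [this, neg_smul, hr', neg_zero]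
      exact Subtype.ext hx0
  infer_instance

end Helpers

/-! ### Relative indices along an endomorphism that is injective on a subgroup -/

section RelIndex

variable {A : Type*} [AddCommGroup A]

theorem relIndex_map_map_of_injOn (d : A →+ A) (H K : AddSubgroup A) (hHK : H ≤ K)
    (hK : ∀ x ∈ K, d x = 0 → x = 0) :
    (H.map d).relIndex (K.map d) = H.relIndex K := by
  let φ : K →+ A := d.comp K.subtype
  have hφ : Function.Injective φ := by
    rw [injective_iff_map_eq_zero]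
    rintro ⟨x, hx⟩ h
    exact Subtype.ext (hK x hx h)
  have h1 := AddSubgroup.relIndex_map_map_of_injective (H.addSubgroupOf K) ⊤ hφ
  have h2 : (H.addSubgroupOf K).map φ = H.map d := by
    rw [← AddSubgroup.map_map, AddSubgroup.addSubgroupOf_map_subtype, inf_of_le_left hHK]
  have h3 : (⊤ : AddSubgroup K).map φ = K.map d := by
    rw [← AddSubgroup.map_map, ← AddMonoidHom.range_eq_map, AddSubgroup.range_subtype]
  rw [h2, h3, AddSubgroup.relIndex_top_right] at h1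
  exact h1

theorem relIndex_iterate (d : A →+ A) (C : AddSubgroup A) (hC : C.map d ≤ C)
    (hinj : ∀ x ∈ C, d x = 0 → x = 0) (k : ℕ) :
    ((AddSubgroup.map d)^[k] C) ≤ C ∧
    ((AddSubgroup.map d)^[k] C).relIndex C = ((C.map d).relIndex C) ^ k := by
  induction k with
  | zero => simp
  | succ k ih =>
    rw [Function.iterate_succ_apply']
    have hle : ((AddSubgroup.map d)^[k] C).map d ≤ C.map d := AddSubgroup.map_mono ih.1
    refine ⟨hle.trans hC, ?_⟩
    rw [← AddSubgroup.relIndex_mul_relIndex _ _ _ hle hC,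
      relIndex_map_map_of_injOn d _ C ih.1 hinj, ih.2, pow_succ]

end RelIndex

/-! ### The polynomial identity `(X - 1)^(p-1) ≡ 1 + X + ⋯ + X^(p-1) (mod p)` -/

open Polynomial in
theorem exists_poly_identity (p : ℕ) [hp : Fact p.Prime] :
    ∃ hh : ℤ[X], (X - 1 : ℤ[X]) ^ (p - 1) =
      (∑ i ∈ Finset.range p, (X : ℤ[X]) ^ i) + C (p : ℤ) * hh := by
  set q : ℤ[X] := (X - 1) ^ (p - 1) - ∑ i ∈ Finset.range p, (X : ℤ[X]) ^ i with hq
  have hmap : q.map (Int.castRingHom (ZMod p)) = 0 := by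
    have h1 : (X - 1 : (ZMod p)[X]) * q.map (Int.castRingHom (ZMod p)) = 0 := by
      rw [hq]
      simp only [Polynomial.map_sub, Polynomial.map_pow, Polynomial.map_X, Polynomial.map_one,
        Polynomial.map_sum]
      rw [mul_sub, ← pow_succ', mul_geom_sum, Nat.sub_add_cancel hp.out.one_le,
        sub_pow_char, one_pow, sub_self]
    rcases mul_eq_zero.mp h1 with h | h
    · have h' : (X - C (1 : ZMod p) : (ZMod p)[X]) = 0 := by simpa using h
      exact absurd h' (Polynomial.X_sub_C_ne_zero (1 : ZMod p))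
    · exact h
  have hdvd : C (p : ℤ) ∣ q := by
    rw [Polynomial.C_dvd_iff_dvd_coeff]
    intro i
    have := congrArg (fun f => f.coeff i) hmap
    simp only [Polynomial.coeff_map, Polynomial.coeff_zero, eq_intCast] at this
    exact (ZMod.intCast_zmod_eq_zero_iff_dvd _ _).mp this
  obtain ⟨hh, hhq⟩ := hdvd
  exact ⟨hh, by rw [← hhq, hq]; ring⟩

open Polynomial in
/-- `p = (X - 1)^(p-1) · U + (1 + X + ⋯ + X^(p-1)) · W` in `ℤ[X]`. -/
theorem exists_poly_identity' (p : ℕ) [hp : Fact p.Prime] :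
    ∃ U W : ℤ[X], C (p : ℤ) =
      (X - 1 : ℤ[X]) ^ (p - 1) * U + (∑ i ∈ Finset.range p, (X : ℤ[X]) ^ i) * W := by
  have hp0 : p ≠ 0 := hp.out.ne_zero
  have hp1 : p - 1 + 1 = p := Nat.sub_add_cancel hp.out.one_le
  set ζ : ℂ := Complex.exp (2 * Real.pi * Complex.I / p) with hζdef
  have hζ : IsPrimitiveRoot ζ p := Complex.isPrimitiveRoot_exp p hp0
  have hζ' : IsPrimitiveRoot ζ (p - 1 + 1) := by rw [hp1]; exact hζ
  set P : ℤ[X] := ∏ k ∈ Finset.range (p - 1), (1 - (X : ℤ[X]) ^ (k + 1)) with hP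
  have hev : aeval ζ (P - C (p : ℤ)) = 0 := by
    rw [map_sub, hP, map_prod]
    simp only [map_sub, map_one, map_pow, aeval_X, map_natCast]
    rw [hζ'.prod_one_sub_pow_eq_order]
    have : ((p - 1 : ℕ) : ℂ) + 1 = (p : ℂ) := by exact_mod_cast congrArg (Nat.cast (R := ℂ)) hp1
    rw [this, sub_self]
  have hint : IsIntegral ℤ ζ := hζ.isIntegral hp.out.pos
  have hdvd : cyclotomic p ℤ ∣ P - C (p : ℤ) := by
    rw [cyclotomic_eq_minpoly hζ hp.out.pos]
    exact minpoly.isIntegrallyClosed_dvd hint hev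
  rw [cyclotomic_prime] at hdvd
  obtain ⟨W', hW'⟩ := hdvd
  have hfac : P = (X - 1 : ℤ[X]) ^ (p - 1) *
      ((-1) ^ (p - 1) * ∏ k ∈ Finset.range (p - 1), ∑ j ∈ Finset.range (k + 1), (X : ℤ[X]) ^ j) := by
    have h1 : ∀ k : ℕ, (1 - (X : ℤ[X]) ^ (k + 1)) =
        (1 - X) * ∑ j ∈ Finset.range (k + 1), (X : ℤ[X]) ^ j := fun k =>
      (mul_neg_geom_sum X (k + 1)).symm
    rw [hP]
    simp_rw [h1]
    rw [Finset.prod_mul_distrib, Finset.prod_const, Finset.card_range]
    have h2 : (1 - X : ℤ[X]) ^ (p - 1) = (X - 1) ^ (p - 1) * (-1) ^ (p - 1) := by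
      rw [← mul_pow]; congr 1; ring
    rw [h2]; ring
  refine ⟨(-1) ^ (p - 1) * ∏ k ∈ Finset.range (p - 1), ∑ j ∈ Finset.range (k + 1),
    (X : ℤ[X]) ^ j, -W', ?_⟩
  rw [← hfac, mul_neg, ← hW']
  ring

/-! ### Part B: the Herbrand quotient for an element `s` of a commutative ring acting on `A`
with `s ^ p = 1` -/

section Main

variable {R : Type*} [CommRing R] {A : Type*} [AddCommGroup A] [Module R A]

/-- Multiplication by `r` as an additive endomorphism. -/
noncomputable def mu (r : R) : A →+ A := DistribSMul.toAddMonoidHom A r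

@[simp] theorem mu_apply (r : R) (x : A) : mu r x = r • x := rfl

/-- The norm element `1 + s + ⋯ + s^(p-1)`. -/
def nrm (p : ℕ) (s : R) : R := ∑ i ∈ Finset.range p, s ^ i

theorem nrm_smul (p : ℕ) (s : R) (y : A) :
    nrm p s • y = ∑ i ∈ Finset.range p, s ^ i • y := by
  rw [nrm, Finset.sum_smul]

theorem D_N_smul {p : ℕ} {s : R} (hs : ∀ x : A, s ^ p • x = x) (x : A) :
    (s - 1) • (nrm p s • x) = 0 := by
  rw [← mul_smul, nrm, mul_geom_sum, sub_smul, hs, one_smul, sub_self]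

theorem s_N_smul {p : ℕ} {s : R} (hs : ∀ x : A, s ^ p • x = x) (x : A) :
    s • (nrm p s • x) = nrm p s • x := by
  have := D_N_smul hs x
  rwa [sub_smul, one_smul, sub_eq_zero] at this

theorem spow_N_smul {p : ℕ} {s : R} (hs : ∀ x : A, s ^ p • x = x) (i : ℕ) (x : A) :
    s ^ i • (nrm p s • x) = nrm p s • x := by
  induction i with
  | zero => simp
  | succ i ih => rw [pow_succ, mul_smul, s_N_smul hs, ih]

theorem N_N_smul {p : ℕ} {s : R} (hs : ∀ x : A, s ^ p • x = x) (x : A) :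
    nrm p s • (nrm p s • x) = p • (nrm p s • x) := by
  rw [nrm_smul p s (nrm p s • x)]
  simp only [spow_N_smul hs, Finset.sum_const, Finset.card_range]

theorem N_smul_of_fixed (p : ℕ) {s : R} (x : A) (hx : (s - 1) • x = 0) :
    nrm p s • x = p • x := by
  have h1 : s • x = x := by rwa [sub_smul, one_smul, sub_eq_zero] at hx
  have h2 : ∀ i : ℕ, s ^ i • x = x := by
    intro i
    induction i with
    | zero => simp
    | succ i ih => rw [pow_succ, mul_smul, h1, ih]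
  rw [nrm_smul]
  simp only [h2, Finset.sum_const, Finset.card_range]

/-- **Herbrand quotient, prime cyclic case.**
`A` a finitely generated abelian group with an action of a commutative ring `R`, `s : R` acting
with `s ^ p = 1`; `D = s - 1`, `N = 1 + s + ⋯ + s^(p-1)`; `H⁰ = [ker D : N A]`,
`H¹ = [ker N : D A]`, `a = rank (ker D)`, `n = rank A`. Then `(p - 1) ∣ n - a`, both indices are
finite and `H⁰ · p^((n-a)/(p-1)) = H¹ · p^a`. -/
theorem herbrand_eq [Module.Finite ℤ A] (p : ℕ) [hp : Fact p.Prime] (s : R)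
    (hs : ∀ x : A, s ^ p • x = x) :
    (p - 1) ∣ (finrank ℤ A - finrank ℤ (mu (A := A) (s - 1)).ker) ∧
    h0 (mu (s - 1)) (mu (nrm p s)) (⊤ : AddSubgroup A) ≠ 0 ∧
    h0 (mu (nrm p s)) (mu (s - 1)) (⊤ : AddSubgroup A) ≠ 0 ∧
    h0 (mu (s - 1)) (mu (nrm p s)) (⊤ : AddSubgroup A) *
        p ^ ((finrank ℤ A - finrank ℤ (mu (A := A) (s - 1)).ker) / (p - 1)) =
      h0 (mu (nrm p s)) (mu (s - 1)) (⊤ : AddSubgroup A) *
        p ^ finrank ℤ (mu (A := A) (s - 1)).ker := by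
  classical
  have hp0 : p ≠ 0 := hp.out.ne_zero
  -- basic identities
  have L1 : ∀ x : A, (s - 1) • (nrm p s • x) = 0 := D_N_smul hs
  have L4 : ∀ x : A, nrm p s • (nrm p s • x) = p • (nrm p s • x) := N_N_smul hs
  have L5 : ∀ x : A, (s - 1) • x = 0 → nrm p s • x = p • x := N_smul_of_fixed p
  have hfg : ∀ x : A, (mu (s - 1) : A →+ A) ((mu (nrm p s) : A →+ A) x) = 0 := fun x => L1 x
  have hgf : ∀ x : A, (mu (nrm p s) : A →+ A) ((mu (s - 1) : A →+ A) x) = 0 := fun x => by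
    show nrm p s • ((s - 1) • x) = 0
    rw [smul_comm]; exact L1 x
  -- torsion exponent
  obtain ⟨m, hm0, hm⟩ := exists_torsion_exponent (A := A)
  have TF : ∀ z : A, ∀ k : ℕ, k ≠ 0 → k • (m • z) = 0 → m • z = 0 := by
    intro z k hk h
    apply hm z (k * m) (Nat.mul_ne_zero hk hm0)
    rw [mul_smul]; exact h
  obtain ⟨e₀, he₀⟩ : ∃ e₀ : R, e₀ = nrm p s * (m : R) := ⟨_, rfl⟩
  obtain ⟨e₁, he₁⟩ : ∃ e₁ : R, e₁ = ((p : R) - nrm p s) * (m : R) := ⟨_, rfl⟩
  obtain ⟨B₀, hB₀⟩ : ∃ B₀ : AddSubgroup A, B₀ = (mu e₀ : A →+ A).range := ⟨_, rfl⟩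
  obtain ⟨B₁, hB₁⟩ : ∃ B₁ : AddSubgroup A, B₁ = (mu e₁ : A →+ A).range := ⟨_, rfl⟩
  have e₀_smul : ∀ y : A, e₀ • y = m • (nrm p s • y) := fun y => by
    rw [he₀, mul_comm, mul_smul, Nat.cast_smul_eq_nsmul]
  have e₁_smul : ∀ y : A, e₁ • y = m • (p • y - nrm p s • y) := fun y => by
    rw [he₁, mul_comm, mul_smul, Nat.cast_smul_eq_nsmul, sub_smul, Nat.cast_smul_eq_nsmul]
  have mem₀ : ∀ x : A, x ∈ B₀ ↔ ∃ y : A, e₀ • y = x := fun x => by rw [hB₀]; rfl
  have mem₁ : ∀ x : A, x ∈ B₁ ↔ ∃ y : A, e₁ • y = x := fun x => by rw [hB₁]; rfl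
  -- torsion-freeness
  have tf₀ : ∀ x ∈ B₀, ∀ k : ℕ, k ≠ 0 → k • x = 0 → x = 0 := by
    intro x hx k hk h
    obtain ⟨y, rfl⟩ := (mem₀ x).mp hx
    rw [e₀_smul] at h ⊢
    exact TF _ k hk h
  have tf₁ : ∀ x ∈ B₁, ∀ k : ℕ, k ≠ 0 → k • x = 0 → x = 0 := by
    intro x hx k hk h
    obtain ⟨y, rfl⟩ := (mem₁ x).mp hx
    rw [e₁_smul] at h ⊢
    exact TF _ k hk h
  -- stability under the ring
  have st₀ : ∀ (r : R), ∀ x ∈ B₀, r • x ∈ B₀ := by
    intro r x hx
    obtain ⟨y, rfl⟩ := (mem₀ x).mp hx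
    exact (mem₀ _).mpr ⟨r • y, smul_comm e₀ r y⟩
  have st₁ : ∀ (r : R), ∀ x ∈ B₁, r • x ∈ B₁ := by
    intro r x hx
    obtain ⟨y, rfl⟩ := (mem₁ x).mp hx
    exact (mem₁ _).mpr ⟨r • y, smul_comm e₁ r y⟩
  -- `B₀ ≤ ker D`, `B₁ ≤ ker N`
  have k₀ : ∀ x ∈ B₀, (s - 1) • x = 0 := by
    intro x hx
    obtain ⟨y, rfl⟩ := (mem₀ x).mp hx
    rw [he₀, mul_smul]; exact L1 _
  have k₁ : ∀ x ∈ B₁, nrm p s • x = 0 := by
    intro x hx
    obtain ⟨y, rfl⟩ := (mem₁ x).mp hx
    rw [he₁, mul_smul, sub_smul, smul_sub, L4, Nat.cast_smul_eq_nsmul, smul_comm (nrm p s) p,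
      sub_self]
  have i₀ : ∀ x ∈ B₀, nrm p s • x = p • x := fun x hx => L5 x (k₀ x hx)
  have z₁ : ∀ x ∈ B₁, (s - 1) • x = 0 → x = 0 := by
    intro x hx hD
    have h1 : nrm p s • x = p • x := L5 x hD
    rw [k₁ x hx] at h1
    exact tf₁ x hx p hp0 h1.symm
  have kerf : (mu (s - 1) : A →+ A).ker ⊓ (B₀ ⊔ B₁) = B₀ := by
    apply le_antisymm
    · rintro x ⟨hxf, hxB⟩
      obtain ⟨x₀, hx₀, x₁, hx₁, rfl⟩ := AddSubgroup.mem_sup.mp hxB
      have h : (s - 1) • (x₀ + x₁) = 0 := hxf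
      rw [smul_add, k₀ x₀ hx₀, zero_add] at h
      rw [z₁ x₁ hx₁ h, add_zero]; exact hx₀
    · exact le_inf (fun x hx => k₀ x hx) le_sup_left
  have kerg : (mu (nrm p s) : A →+ A).ker ⊓ (B₀ ⊔ B₁) = B₁ := by
    apply le_antisymm
    · rintro x ⟨hxf, hxB⟩
      obtain ⟨x₀, hx₀, x₁, hx₁, rfl⟩ := AddSubgroup.mem_sup.mp hxB
      have h : nrm p s • (x₀ + x₁) = 0 := hxf
      rw [smul_add, k₁ x₁ hx₁, add_zero, i₀ x₀ hx₀] at h
      rw [tf₀ x₀ hx₀ p hp0 h, zero_add]; exact hx₁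
    · exact le_inf (fun x hx => k₁ x hx) le_sup_right
  have mapg : (B₀ ⊔ B₁).map (mu (nrm p s) : A →+ A) =
      B₀.map (nsmulAddMonoidHom (α := A) p) := by
    ext y; constructor
    · rintro ⟨x, hxB, rfl⟩
      obtain ⟨x₀, hx₀, x₁, hx₁, rfl⟩ := AddSubgroup.mem_sup.mp hxB
      refine ⟨x₀, hx₀, ?_⟩
      show p • x₀ = nrm p s • (x₀ + x₁)
      rw [smul_add, k₁ x₁ hx₁, add_zero, i₀ x₀ hx₀]
    · rintro ⟨x₀, hx₀, rfl⟩
      refine ⟨x₀, (le_sup_left : B₀ ≤ B₀ ⊔ B₁) hx₀, ?_⟩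
      show nrm p s • x₀ = p • x₀
      exact i₀ x₀ hx₀
  have mapf : (B₀ ⊔ B₁).map (mu (s - 1) : A →+ A) = B₁.map (mu (s - 1) : A →+ A) := by
    ext y; constructor
    · rintro ⟨x, hxB, rfl⟩
      obtain ⟨x₀, hx₀, x₁, hx₁, rfl⟩ := AddSubgroup.mem_sup.mp hxB
      refine ⟨x₁, hx₁, ?_⟩
      show (s - 1) • x₁ = (s - 1) • (x₀ + x₁)
      rw [smul_add, k₀ x₀ hx₀, zero_add]
    · rintro ⟨x₁, hx₁, rfl⟩
      exact ⟨x₁, (le_sup_right : B₁ ≤ B₀ ⊔ B₁) hx₁, rfl⟩
  have hDB₁ : B₁.map (mu (s - 1) : A →+ A) ≤ B₁ := by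
    rintro _ ⟨x, hx, rfl⟩
    exact st₁ (s - 1) x hx
  have hfB : (B₀ ⊔ B₁).map (mu (s - 1) : A →+ A) ≤ B₀ ⊔ B₁ := by
    rw [mapf]; exact hDB₁.trans le_sup_right
  have hgB : (B₀ ⊔ B₁).map (mu (nrm p s) : A →+ A) ≤ B₀ ⊔ B₁ := by
    rintro _ ⟨x, hx, rfl⟩
    obtain ⟨x₀, hx₀, x₁, hx₁, rfl⟩ := AddSubgroup.mem_sup.mp hx
    show nrm p s • (x₀ + x₁) ∈ B₀ ⊔ B₁
    rw [smul_add]
    exact AddSubgroup.add_mem _ ((le_sup_left : B₀ ≤ B₀ ⊔ B₁) (st₀ _ x₀ hx₀))
      ((le_sup_right : B₁ ≤ B₀ ⊔ B₁) (st₁ _ x₁ hx₁))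
  -- finite index
  have hBidx : (B₀ ⊔ B₁).index ≠ 0 := by
    have hle : (nsmulAddMonoidHom (α := A) (p * m)).range ≤ B₀ ⊔ B₁ := by
      rintro _ ⟨y, rfl⟩
      refine AddSubgroup.mem_sup.mpr
        ⟨e₀ • y, (mem₀ _).mpr ⟨y, rfl⟩, e₁ • y, (mem₁ _).mpr ⟨y, rfl⟩, ?_⟩
      rw [← add_smul, he₀, he₁]
      have : nrm p s * (m : R) + ((p : R) - nrm p s) * (m : R) = ((p * m : ℕ) : R) := by
        push_cast; ring
      rw [this, Nat.cast_smul_eq_nsmul]; rfl
    have h1 := index_range_nsmul_ne_zero (A := A) (p * m) (Nat.mul_ne_zero hp0 hm0)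
    intro h
    have h2 := AddSubgroup.index_dvd_of_le hle
    rw [h] at h2
    exact h1 (Nat.eq_zero_of_zero_dvd h2)
  -- `h⁰` of `B`
  have free₀ : Module.Free ℤ (AddSubgroup.toIntSubmodule B₀) := free_of_torsionFree B₀ tf₀
  have free₁ : Module.Free ℤ (AddSubgroup.toIntSubmodule B₁) := free_of_torsionFree B₁ tf₁
  have H0B : h0 (mu (s - 1)) (mu (nrm p s)) (B₀ ⊔ B₁) = p ^ finrank ℤ B₀ := by
    rw [h0, kerf, mapg]
    exact AddSubgroup.relIndex_map_nsmul p B₀
  have hpow : (B₁.map (nsmulAddMonoidHom (α := A) p)).relIndex B₁ = p ^ finrank ℤ B₁ :=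
    AddSubgroup.relIndex_map_nsmul p B₁
  have H1B : h0 (mu (nrm p s)) (mu (s - 1)) (B₀ ⊔ B₁) =
      (B₁.map (mu (s - 1) : A →+ A)).relIndex B₁ := by
    rw [h0, kerg, mapf]
  -- `p B₁ ≤ D B₁`
  have hK : (p : R) - nrm p s =
      (s - 1) * (-(∑ i ∈ Finset.range p, ∑ j ∈ Finset.range i, s ^ j)) := by
    rw [mul_neg, Finset.mul_sum]
    simp_rw [mul_geom_sum]
    rw [Finset.sum_sub_distrib]
    simp [nrm]
  have hB₁pD : B₁.map (nsmulAddMonoidHom (α := A) p) ≤ B₁.map (mu (s - 1) : A →+ A) := by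
    rintro _ ⟨x, hx, rfl⟩
    refine ⟨(-(∑ i ∈ Finset.range p, ∑ j ∈ Finset.range i, s ^ j)) • x, st₁ _ x hx, ?_⟩
    show (s - 1) • ((-(∑ i ∈ Finset.range p, ∑ j ∈ Finset.range i, s ^ j)) • x) = p • x
    rw [← mul_smul, ← hK, sub_smul, k₁ x hx, sub_zero, Nat.cast_smul_eq_nsmul]
  have hpB₁ : B₁.map (nsmulAddMonoidHom (α := A) p) ≤ B₁ := hB₁pD.trans hDB₁
  -- `D^(p-1) B₁ = p B₁`
  have hpoweq : (B₁.map (mu (s - 1) : A →+ A)).relIndex B₁ ^ (p - 1) = p ^ finrank ℤ B₁ := by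
    obtain ⟨hle, hidx⟩ := relIndex_iterate (mu (s - 1) : A →+ A) B₁ hDB₁
      (fun x hx h => z₁ x hx h) (p - 1)
    have hiter : ∀ k : ℕ, ∀ y ∈ (AddSubgroup.map (mu (s - 1) : A →+ A))^[k] B₁,
        ∃ x ∈ B₁, y = (s - 1) ^ k • x := by
      intro k
      induction k with
      | zero => intro y hy; exact ⟨y, hy, by simp⟩
      | succ k ih =>
        intro y hy
        rw [Function.iterate_succ_apply'] at hy
        obtain ⟨y', hy', rfl⟩ := hy
        obtain ⟨x, hx, rfl⟩ := ih y' hy'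
        exact ⟨x, hx, by rw [pow_succ', mul_smul]; rfl⟩
    have hiter' : ∀ k : ℕ, ∀ x ∈ B₁,
        (s - 1) ^ k • x ∈ (AddSubgroup.map (mu (s - 1) : A →+ A))^[k] B₁ := by
      intro k
      induction k with
      | zero => intro x hx; simpa using hx
      | succ k ih =>
        intro x hx
        rw [Function.iterate_succ_apply']
        exact ⟨(s - 1) ^ k • x, ih x hx, by rw [pow_succ', mul_smul]; rfl⟩
    obtain ⟨hh, hhid⟩ := exists_poly_identity p
    have hid : (s - 1) ^ (p - 1) = nrm p s + (p : R) * Polynomial.aeval s hh := by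
      have := congrArg (Polynomial.aeval s) hhid
      simpa [nrm] using this
    obtain ⟨U, W, hUW⟩ := exists_poly_identity' p
    have hid' : (p : R) = (s - 1) ^ (p - 1) * Polynomial.aeval s U +
        nrm p s * Polynomial.aeval s W := by
      have := congrArg (Polynomial.aeval s) hUW
      simpa [nrm] using this
    have hsub : (AddSubgroup.map (mu (s - 1) : A →+ A))^[p - 1] B₁ ≤
        B₁.map (nsmulAddMonoidHom (α := A) p) := by
      intro y hy
      obtain ⟨x, hx, rfl⟩ := hiter (p - 1) y hy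
      refine ⟨Polynomial.aeval s hh • x, st₁ _ x hx, ?_⟩
      show p • (Polynomial.aeval s hh • x) = (s - 1) ^ (p - 1) • x
      rw [hid, add_smul, k₁ x hx, zero_add, mul_smul, Nat.cast_smul_eq_nsmul]
    have hsup : B₁.map (nsmulAddMonoidHom (α := A) p) ≤
        (AddSubgroup.map (mu (s - 1) : A →+ A))^[p - 1] B₁ := by
      rintro _ ⟨x, hx, rfl⟩
      have h1 := hiter' (p - 1) (Polynomial.aeval s U • x) (st₁ _ x hx)
      have h2 : (s - 1) ^ (p - 1) • (Polynomial.aeval s U • x) = p • x := by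
        have h3 : (p : R) • x = (s - 1) ^ (p - 1) • (Polynomial.aeval s U • x) := by
          conv_lhs => rw [hid']
          rw [add_smul, mul_smul, mul_smul, smul_comm (nrm p s), k₁ x hx, smul_zero, add_zero]
        rw [← h3, Nat.cast_smul_eq_nsmul]
      rw [h2] at h1
      exact h1
    rw [← hidx, le_antisymm hsub hsup, hpow]
  have hne : (B₁.map (mu (s - 1) : A →+ A)).relIndex B₁ ≠ 0 := by
    intro h0'
    rw [h0', zero_pow (Nat.sub_ne_zero_of_lt hp.out.one_lt)] at hpoweq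
    exact (pow_ne_zero _ hp0) hpoweq.symm
  -- the local `h¹` is a power of `p`
  obtain ⟨c, hc⟩ : ∃ c : ℕ, (B₁.map (mu (s - 1) : A →+ A)).relIndex B₁ = p ^ c := by
    have hdvd : (B₁.map (mu (s - 1) : A →+ A)).relIndex B₁ ∣ p ^ finrank ℤ B₁ := by
      rw [← hpoweq]
      exact dvd_pow_self _ (Nat.sub_ne_zero_of_lt hp.out.one_lt)
    obtain ⟨c, -, hc⟩ := (Nat.dvd_prime_pow hp.out).mp hdvd
    exact ⟨c, hc⟩
  have hcb : c * (p - 1) = finrank ℤ B₁ := by
    rw [hc, ← pow_mul] at hpoweq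
    exact Nat.pow_right_injective hp.out.two_le hpoweq
  -- ranks
  have rk₀ : finrank ℤ B₀ = finrank ℤ (mu (A := A) (s - 1)).ker := by
    apply le_antisymm
    · exact finrank_mono (fun x hx => k₀ x hx)
    · rw [← finrank_map_nsmul (mu (A := A) (s - 1)).ker (p * m) (Nat.mul_ne_zero hp0 hm0)]
      apply finrank_mono
      rintro _ ⟨x, hx, rfl⟩
      refine (mem₀ _).mpr ⟨x, ?_⟩
      have hx' : (s - 1) • x = 0 := hx
      rw [e₀_smul, L5 x hx']
      show m • p • x = (p * m) • x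
      rw [mul_comm, mul_smul]
  have rk₁ : finrank ℤ B₁ + finrank ℤ (mu (A := A) (s - 1)).ker = finrank ℤ A := by
    have h1 := finrank_range_add_finrank_ker (mu e₁ : A →+ A)
    have h2 : finrank ℤ (mu e₁ : A →+ A).ker = finrank ℤ (mu (A := A) (s - 1)).ker := by
      apply le_antisymm
      · rw [← finrank_map_nsmul (mu e₁ : A →+ A).ker (m * p) (Nat.mul_ne_zero hm0 hp0)]
        apply finrank_mono
        rintro _ ⟨x, hx, rfl⟩
        have hx' : e₁ • x = 0 := hx
        show (s - 1) • ((m * p) • x) = 0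
        have h3 : (s - 1) • (e₁ • x) = (m * p) • ((s - 1) • x) := by
          rw [e₁_smul, smul_comm (s - 1) m, smul_sub, smul_comm (s - 1) p, L1, sub_zero,
            mul_smul]
        rw [smul_comm, ← h3, hx', smul_zero]
      · apply finrank_mono
        intro x hx
        have hx' : (s - 1) • x = 0 := hx
        show e₁ • x = 0
        rw [e₁_smul, L5 x hx', sub_self, smul_zero]
    rw [← hB₁, h2] at h1
    exact h1
  -- assembly
  have iso := isogeny hfg hgf (B₀ ⊔ B₁) hBidx hfB hgB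
  rw [H0B, H1B] at iso
  have H0ne : h0 (mu (s - 1)) (mu (nrm p s)) (⊤ : AddSubgroup A) ≠ 0 :=
    h0_top_ne_zero hfg (B₀ ⊔ B₁) hBidx hgB (by rw [H0B]; exact pow_ne_zero _ hp0)
  have H1ne : h0 (mu (nrm p s)) (mu (s - 1)) (⊤ : AddSubgroup A) ≠ 0 :=
    h0_top_ne_zero hgf (B₀ ⊔ B₁) hBidx hfB (by rw [H1B]; exact hne)
  have hb₁ : finrank ℤ A - finrank ℤ (mu (A := A) (s - 1)).ker = finrank ℤ B₁ := by omega
  have hp1 : 0 < p - 1 := Nat.sub_pos_of_lt hp.out.one_lt
  rw [hb₁, ← hcb]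
  refine ⟨Dvd.intro_left c rfl, H0ne, H1ne, ?_⟩
  rw [Nat.mul_div_cancel c hp1, ← hc, iso, rk₀]

end Main

end Fermat.Agent.S14C.HerbrandCore
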