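import Fermat.Agent.S14C.XDefs
import Fermat.Agent.S14C.EvalI
import Fermat.Agent.S14C.SI.TopPlan
import Fermat.Agent.S14C.SI.OrdBasic
import Fermat.Agent.S14C.SI.Approx
import Fermat.Agent.S14C.SI.SymBasic

/-!
# S14C : the second inequality in consumer form `SIX p`, from the SI leaves

`six_of_leaves : AuxPrimesStatement p → SIOneStatement p → SIX p`.

Self-contained bridge between the "divisor language" of `SI/Defs` (`Pl`, `ord`, `divisor`) and
the "ideal language" of `XDefs` (`evalI`, `InX`).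
-/

set_option autoImplicit false
set_option linter.unusedSectionVars false

namespace Fermat.Agent.S14C.SIXAsm

open IsDedekindDomain NumberField
open Fermat.Agent.S14C.SIDefs (Pl ord nrm Above CongMod divisor divisor_apply)

variable {F : Type} [Field F] [NumberField F] {p : ℕ}

/-! ### `evalD` : additive extension of `Θ` to divisors -/

/-- Additive extension of a function on primes to divisors. -/
noncomputable def evalD (Θ : Ideal (𝓞 F) → ZMod p) (D : Pl F →₀ ℤ) : ZMod p :=
  D.sum fun v n => (n : ZMod p) * Θ v.asIdeal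

theorem evalD_add (Θ : Ideal (𝓞 F) → ZMod p) (D D' : Pl F →₀ ℤ) :
    evalD Θ (D + D') = evalD Θ D + evalD Θ D' := by
  unfold evalD
  rw [Finsupp.sum_add_index']
  · intro v; simp
  · intro v n n'; push_cast; ring

theorem evalD_sub (Θ : Ideal (𝓞 F) → ZMod p) (D D' : Pl F →₀ ℤ) :
    evalD Θ (D - D') = evalD Θ D - evalD Θ D' := by
  unfold evalD
  rw [Finsupp.sum_sub_index]
  intro v n n'; push_cast; ring

theorem evalD_single (Θ : Ideal (𝓞 F) → ZMod p) (v : Pl F) (n : ℤ) :
    evalD Θ (Finsupp.single v n) = (n : ZMod p) * Θ v.asIdeal := by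
  unfold evalD
  rw [Finsupp.sum_single_index]
  simp

theorem evalD_congr (Θ : Ideal (𝓞 F) → ZMod p) {D D' : Pl F →₀ ℤ}
    (h : ∀ v, ((D v : ℤ) : ZMod p) * Θ v.asIdeal = ((D' v : ℤ) : ZMod p) * Θ v.asIdeal) :
    evalD Θ D = evalD Θ D' := by
  classical
  unfold evalD
  rw [Finsupp.sum_of_support_subset D (Finset.subset_union_left (s₂ := D'.support)) _
      (by intro v _; simp),
    Finsupp.sum_of_support_subset D' (Finset.subset_union_right (s₁ := D.support)) _
      (by intro v _; simp)]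
  exact Finset.sum_congr rfl (fun v _ => h v)

theorem ord_algebraMap_eq_count (v : Pl F) {x : 𝓞 F} (hx : x ≠ 0) :
    ord v (algebraMap (𝓞 F) F x) =
      ((Associates.mk v.asIdeal).count (Associates.mk (Ideal.span {x} : Ideal (𝓞 F))).factors : ℤ) := by
  simp only [ord, HeightOneSpectrum.valuation_of_algebraMap, v.intValuation_if_neg hx]
  rw [WithZero.log_exp]
  ring

/-- `evalI` of a principal ideal is `evalD` of the divisor of its generator. -/
theorem evalI_span_eq_evalD (Θ : Ideal (𝓞 F) → ZMod p) {x : 𝓞 F} (hx : x ≠ 0) :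
    evalI Θ (Ideal.span {x}) = evalD Θ (divisor (algebraMap (𝓞 F) F x)) := by
  classical
  have hI : (Ideal.span {x} : Ideal (𝓞 F)) ≠ 0 := by
    simpa [Ideal.zero_eq_bot, Ideal.span_singleton_eq_bot] using hx
  have hsub : Function.mulSupport (fun v : Pl F => v.maxPowDividing (Ideal.span {x})) ⊆
      ((divisor (algebraMap (𝓞 F) F x)).support : Set (Pl F)) := by
    intro v hv
    rw [Function.mem_mulSupport] at hv
    rw [Finset.mem_coe, Finsupp.mem_support_iff, divisor_apply, ord_algebraMap_eq_count v hx]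
    intro h0
    apply hv
    have h0' : (Associates.mk v.asIdeal).count
        (Associates.mk (Ideal.span {x} : Ideal (𝓞 F))).factors = 0 := by exact_mod_cast h0
    simp [HeightOneSpectrum.maxPowDividing, h0']
  have hprod := Ideal.finprod_heightOneSpectrum_factorization hI
  rw [finprod_eq_prod_of_mulSupport_subset _ hsub] at hprod
  conv_lhs => rw [← hprod]
  rw [EvalI.evalI_prod]
  · unfold evalD Finsupp.sum
    refine Finset.sum_congr rfl (fun v _ => ?_)
    rw [HeightOneSpectrum.maxPowDividing, EvalI.evalI_pow, EvalI.evalI_prime Θ v.isPrime v.ne_bot,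
      divisor_apply, ord_algebraMap_eq_count v hx]
    push_cast
    rfl
  · intro v _
    rw [HeightOneSpectrum.maxPowDividing]
    exact pow_ne_zero _ v.ne_bot

theorem divisor_div {x y : F} (hx : x ≠ 0) (hy : y ≠ 0) :
    divisor (x / y) = divisor x - divisor y := by
  ext v
  simp [OrdBasic.ord_div v hx hy]

/-! ### Coprimality to `m` and integral representatives -/

theorem natCast_int_ne_zero {m : ℕ} (hm : m ≠ 0) : (m : 𝓞 F) ≠ 0 := by
  exact_mod_cast hm

theorem isCoprime_of_forall_notMem {m : ℕ} (hm : m ≠ 0) {u : 𝓞 F}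
    (h : ∀ v : Pl F, (m : 𝓞 F) ∈ v.asIdeal → u ∉ v.asIdeal) : IsCoprime u (m : 𝓞 F) := by
  rw [← Ideal.isCoprime_span_singleton_iff, Ideal.isCoprime_iff_sup_eq]
  by_contra hne
  obtain ⟨M, hM, hle⟩ := Ideal.exists_le_maximal _ hne
  have hmM : (m : 𝓞 F) ∈ M := hle (Ideal.mem_sup_right (Ideal.mem_span_singleton_self _))
  have huM : u ∈ M := hle (Ideal.mem_sup_left (Ideal.mem_span_singleton_self _))
  have hM0 : M ≠ ⊥ := by
    rintro rfl
    exact hm (by simpa using hmM)
  exact h ⟨M, hM.isPrime, hM0⟩ hmM huM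

theorem finite_natCast_mem {m : ℕ} (hm : m ≠ 0) : {v : Pl F | (m : 𝓞 F) ∈ v.asIdeal}.Finite := by
  have h : {v : Pl F | v.asIdeal ∣ Ideal.span {(m : 𝓞 F)}}.Finite :=
    Ideal.finite_factors (by simpa using natCast_int_ne_zero (F := F) hm)
  refine h.subset ?_
  intro v hv
  simpa [Ideal.dvd_span_singleton] using hv

theorem val_eq_exp_neg_ord (v : Pl F) {x : F} (hx : x ≠ 0) :
    v.valuation F x = WithZero.exp (- ord v x) :=
  OrdBasic.valuation_eq_exp_neg_ord v hx

/-- A nonzero element which is a unit at all primes dividing `m` is a quotient of two integers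
coprime to `m`. -/
theorem exists_coprime_repr {m : ℕ} (hm : m ≠ 0) {x : F} (hx0 : x ≠ 0)
    (hx : ∀ v : Pl F, (m : 𝓞 F) ∈ v.asIdeal → ord v x = 0) :
    ∃ u w : 𝓞 F, u ≠ 0 ∧ w ≠ 0 ∧ IsCoprime u (m : 𝓞 F) ∧ IsCoprime w (m : 𝓞 F) ∧
      x = algebraMap (𝓞 F) F u / algebraMap (𝓞 F) F w := by
  classical
  set S0 : Finset (Pl F) := (finite_natCast_mem (F := F) hm).toFinset with hS0
  have hS0mem : ∀ v : Pl F, v ∈ S0 ↔ (m : 𝓞 F) ∈ v.asIdeal := by
    intro v; simp [hS0]
  obtain ⟨w, hw0, hw⟩ := Approx.exists_int_val (S0 ∪ (divisor x).support)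
    (fun v => (- ord v x).toNat)
  have hwF : algebraMap (𝓞 F) F w ≠ 0 := by simpa using hw0
  -- valuations of `x * w`
  have hval : ∀ v : Pl F, v.valuation F (x * algebraMap (𝓞 F) F w) ≤ 1 := by
    intro v
    rw [map_mul, HeightOneSpectrum.valuation_of_algebraMap]
    by_cases hv : v ∈ S0 ∪ (divisor x).support
    · rw [hw v hv, val_eq_exp_neg_ord v hx0, ← WithZero.exp_add, ← WithZero.exp_zero,
        WithZero.exp_le_exp]
      have := Int.self_le_toNat (- ord v x)
      omega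
    · have hx1 : ord v x = 0 := by
        have : v ∉ (divisor x).support := fun h => hv (Finset.mem_union_right _ h)
        simpa [Finsupp.mem_support_iff] using this
      rw [val_eq_exp_neg_ord v hx0, hx1, neg_zero, WithZero.exp_zero, one_mul]
      exact v.intValuation_le_one w
  obtain ⟨u, hu⟩ := HeightOneSpectrum.mem_integers_of_valuation_le_one F _ hval
  have hu0 : u ≠ 0 := by
    rintro rfl
    rw [map_zero] at hu
    exact mul_ne_zero hx0 hwF hu.symm
  refine ⟨u, w, hu0, hw0, ?_, ?_, ?_⟩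
  · apply isCoprime_of_forall_notMem hm
    intro v hv
    have hvS : v ∈ S0 ∪ (divisor x).support := Finset.mem_union_left _ ((hS0mem v).mpr hv)
    have h1 : v.valuation F (algebraMap (𝓞 F) F u) = 1 := by
      rw [hu, map_mul, HeightOneSpectrum.valuation_of_algebraMap, hw v hvS,
        val_eq_exp_neg_ord v hx0, hx v hv]
      simp
    intro hmem
    have := (HeightOneSpectrum.valuation_lt_one_iff_mem (K := F) v u).mpr hmem
    rw [h1] at this
    exact lt_irrefl _ this
  · apply isCoprime_of_forall_notMem hm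
    intro v hv
    have hvS : v ∈ S0 ∪ (divisor x).support := Finset.mem_union_left _ ((hS0mem v).mpr hv)
    have h1 : v.intValuation w = 1 := by
      rw [hw v hvS, hx v hv]
      simp
    intro hmem
    have := (v.intValuation_lt_one_iff_mem w).mpr hmem
    rw [h1] at this
    exact lt_irrefl _ this
  · rw [hu]
    field_simp

/-! ### Translation of the symbols -/

theorem xsym_eq_zero_of_sym_eq_zero [Fact p.Prime] {ζ a : 𝓞 F}
    (hζ : IsPrimitiveRoot (algebraMap (𝓞 F) F ζ) p) (v : Pl F) (hv : ¬ Above p v)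
    (h : SIDefs.sym p (algebraMap (𝓞 F) F ζ) v (algebraMap (𝓞 F) F a) = 0) :
    Fermat.Agent.S14C.sym p ζ a v.asIdeal = 0 := by
  unfold Fermat.Agent.S14C.sym
  split_ifs with hex
  · have hspec := hex.choose_spec
    have h2 : SIDefs.sym p (algebraMap (𝓞 F) F ζ) v (algebraMap (𝓞 F) F a) = hex.choose := by
      apply SymBasic.sym_unique hζ v hv
      rw [← map_pow, ← map_pow, SymBasic.congMod_int_iff, Ideal.Quotient.eq]
      exact hspec
    rw [← h2, h]
  · rfl

/-! ### The assembly -/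

/-- The key relation: a nonzero pair `(c₁, c₂)` annihilating `(Θ P, Θ P0)` for every `Θ` in the
X-space. -/
theorem exists_relation [Fact p.Prime] (hAux : SITop.AuxPrimesStatement p)
    (hOne : SITop.SIOneStatement p) (ζ a : 𝓞 F) (m : ℕ) (hζ : IsPrimitiveRoot ζ p)
    (ha : ¬ ∃ y : F, (a : F) = y ^ p) (hpm : p ∣ m) (hm : m ≠ 0)
    (hma : ∀ P : Ideal (𝓞 F), P.IsPrime → a ∈ P → (m : 𝓞 F) ∈ P)
    (vP vP0 : Pl F) (hP : (m : 𝓞 F) ∉ vP.asIdeal) (hP0 : (m : 𝓞 F) ∉ vP0.asIdeal) :
    ∃ c₁ c₂ : ZMod p, (c₁ ≠ 0 ∨ c₂ ≠ 0) ∧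
      ∀ Θ : Ideal (𝓞 F) → ZMod p, InX p ζ a m Θ →
        c₁ * Θ vP.asIdeal + c₂ * Θ vP0.asIdeal = 0 := by
  classical
  have hζ' : IsPrimitiveRoot (algebraMap (𝓞 F) F ζ) p :=
    hζ.map_of_injective (FaithfulSMul.algebraMap_injective (𝓞 F) F)
  have ha' : ∀ b : F, b ^ p ≠ algebraMap (𝓞 F) F a := fun b hb => ha ⟨b, hb.symm⟩
  set S0 : Finset (Pl F) := (finite_natCast_mem (F := F) hm).toFinset with hS0
  have hS0mem : ∀ v : Pl F, v ∈ S0 ↔ (m : 𝓞 F) ∈ v.asIdeal := by
    intro v; simp [hS0]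
  obtain ⟨S1, hS01, hS1⟩ := Approx.exists_classGenerators S0
  set S : Finset (Pl F) := S0 ∪ S1 ∪ {vP, vP0} with hSdef
  have hS0S : S0 ⊆ S := fun v hv => by simp [hSdef, hv]
  have hS1S : S1 ⊆ S := fun v hv => by simp [hSdef, hv]
  have hSp : ∀ v : Pl F, Above p v → v ∈ S := by
    intro v hv
    apply hS0S
    rw [hS0mem]
    have h1 : (p : 𝓞 F) ∈ v.asIdeal := (OrdBasic.above_iff v).mp hv
    obtain ⟨k, rfl⟩ := hpm
    push_cast
    exact Ideal.mul_mem_right _ _ h1
  have hS : ∀ D : Pl F →₀ ℤ, ∃ x : F, x ≠ 0 ∧ ∀ v, v ∉ S → D v = ord v x := by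
    intro D
    obtain ⟨x, hx0, -, hx⟩ := hS1 (D.filter (fun v => v ∉ S0)) (by
      intro v hv
      simp [hv])
    refine ⟨x, hx0, fun v hv => ?_⟩
    have hv0 : v ∉ S0 := fun h => hv (hS0S h)
    have hv1 : v ∉ S1 := fun h => hv (hS1S h)
    rw [← hx v hv1, Finsupp.filter_apply, if_pos hv0]
  have haS : ∀ v : Pl F, v ∉ S → ord v (algebraMap (𝓞 F) F a) = 0 := by
    intro v hv
    have hv0 : (m : 𝓞 F) ∉ v.asIdeal := fun h => hv (hS0S ((hS0mem v).mpr h))
    have hav : a ∉ v.asIdeal := fun h => hv0 (hma v.asIdeal v.isPrime h)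
    apply SymBasic.ord_eq_zero_of_val
    exact (SymBasic.mk_ne_zero_iff v a).mp (by rwa [Ne, Ideal.Quotient.eq_zero_iff_mem])
  obtain ⟨T, hdisj, hTa, hcard, hT⟩ :=
    hAux F (algebraMap (𝓞 F) F ζ) hζ' (algebraMap (𝓞 F) F a) ha' S hSp haS
  obtain ⟨c₁, c₂, hc, x, hx0, hx⟩ := hOne F (algebraMap (𝓞 F) F ζ) hζ' S T hdisj hSp hS hT hcard
    (Finsupp.single vP 1) (Finsupp.single vP0 1)
  have hTS : ∀ v ∈ T, v ∉ S := fun v hvT hvS => Finset.disjoint_left.mp hdisj hvS hvT
  have hxS0 : ∀ v ∈ S0, (p : ℤ) ∣ ord v x := by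
    intro v hv
    have hvT : v ∉ T := fun h => hTS v h (hS0S hv)
    have hvm := (hS0mem v).mp hv
    have h1 : vP ≠ v := by rintro rfl; exact hP hvm
    have h2 : vP0 ≠ v := by rintro rfl; exact hP0 hvm
    have h3 := hx v hvT
    simp only [Finsupp.single_apply, if_neg h1, if_neg h2, mul_zero, add_zero, zero_sub,
      dvd_neg] at h3
    exact h3
  obtain ⟨z, hz0, hz⟩ := Approx.exists_ord_eq S0 (fun v => ord v x / p)
  have hx'0 : x / z ^ p ≠ 0 := div_ne_zero hx0 (pow_ne_zero _ hz0)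
  have hordx' : ∀ v : Pl F, ord v (x / z ^ p) = ord v x - p * ord v z := by
    intro v
    rw [OrdBasic.ord_div v hx0 (pow_ne_zero _ hz0), OrdBasic.ord_pow]
  have hx'S0 : ∀ v : Pl F, (m : 𝓞 F) ∈ v.asIdeal → ord v (x / z ^ p) = 0 := by
    intro v hv
    have hvS0 := (hS0mem v).mpr hv
    rw [hordx', hz v hvS0, Int.mul_ediv_cancel' (hxS0 v hvS0)]
    ring
  obtain ⟨u, w, hu0, hw0, hucop, hwcop, hxuw⟩ := exists_coprime_repr hm hx'0 hx'S0
  refine ⟨(c₁ : ZMod p), (c₂ : ZMod p), ?_, ?_⟩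
  · rcases hc with h | h
    · left; rwa [Ne, ZMod.intCast_zmod_eq_zero_iff_dvd]
    · right; rwa [Ne, ZMod.intCast_zmod_eq_zero_iff_dvd]
  · intro Θ hΘ
    have h1 := hΘ.principal u hucop
    have h2 := hΘ.principal w hwcop
    rw [evalI_span_eq_evalD Θ hu0] at h1
    rw [evalI_span_eq_evalD Θ hw0] at h2
    have h3 : evalD Θ (divisor (x / z ^ p)) = 0 := by
      rw [hxuw, divisor_div (by simpa using hu0) (by simpa using hw0), evalD_sub, h1, h2,
        sub_zero]
    have h4 : evalD Θ (divisor (x / z ^ p)) =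
        evalD Θ (Finsupp.single vP c₁ + Finsupp.single vP0 c₂) := by
      apply evalD_congr
      intro v
      by_cases hvT : v ∈ T
      · have hvS := hTS v hvT
        have hvm : (m : 𝓞 F) ∉ v.asIdeal := fun h => hvS (hS0S ((hS0mem v).mpr h))
        have hvp : ¬ Above p v := fun h => hvS (hSp v h)
        have h0 : Θ v.asIdeal = 0 := hΘ.split v.asIdeal v.isPrime v.ne_bot hvm
          (xsym_eq_zero_of_sym_eq_zero hζ' v hvp (hTa v hvT))
        rw [h0, mul_zero, mul_zero]
      · congr 1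
        rw [ZMod.intCast_eq_intCast_iff_dvd_sub, divisor_apply, hordx', Finsupp.add_apply]
        have h5 := hx v hvT
        have e : Finsupp.single vP c₁ v + Finsupp.single vP0 c₂ v - (ord v x - p * ord v z) =
            (c₁ * (Finsupp.single vP (1 : ℤ) v) + c₂ * (Finsupp.single vP0 (1 : ℤ) v) - ord v x)
              + p * ord v z := by
          simp only [Finsupp.single_apply]
          split_ifs <;> ring
        rw [e]
        exact dvd_add h5 (dvd_mul_right _ _)
    rw [h4, evalD_add, evalD_single, evalD_single] at h3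
    exact h3

set_option linter.unusedVariables false in
/-- **SIX from the SI leaves**: the X-space is at most one-dimensional. -/
theorem six_of_leaves {p : ℕ} [Fact p.Prime] (hp2 : p ≠ 2) (hAux : SITop.AuxPrimesStatement p)
    (hOne : SITop.SIOneStatement p) : Fermat.Agent.S14C.SIX p := by
  intro F _ _ ζ a m Θ Ψ hζ ha hpm hma hΘ hΨ hex
  obtain ⟨P0, hP0, hP0ne, hmP0, hΨP0⟩ := hex
  have hm : m ≠ 0 := by
    rintro rfl
    exact hmP0 (by simp)
  refine ⟨Θ P0 / Ψ P0, ?_⟩
  intro P hP hPne hmP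
  obtain ⟨c₁, c₂, hc, hrel⟩ := exists_relation hAux hOne ζ a m hζ ha hpm hm hma
    ⟨P, hP, hPne⟩ ⟨P0, hP0, hP0ne⟩ hmP hmP0
  have e1 := hrel Θ hΘ
  have e2 := hrel Ψ hΨ
  simp only at e1 e2
  have hdet : Θ P * Ψ P0 - Θ P0 * Ψ P = 0 := by
    rcases hc with h | h
    · apply mul_left_cancel₀ h
      rw [mul_zero]
      linear_combination Ψ P0 * e1 - Θ P0 * e2
    · apply mul_left_cancel₀ h
      rw [mul_zero]
      linear_combination Θ P * e2 - Ψ P * e1
  field_simp
  linear_combination hdet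

end Fermat.Agent.S14C.SIXAsm
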