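import Fermat.Agent.S14C.EvalI
import Fermat.Agent.S14C.SI.Approx

/-!
# S14C : bridge between the "symbol language" (`XDefs`: `evalI`, `sym`, `InX`) and the
divisor language of the SI sub-team (`SI/Defs`: `Pl`, `ord`, `divisor`, `sym`)

* `sym_eq` : the two power residue symbols agree (unconditionally);
* `evalD Θ D` : evaluation of a function on primes on a divisor, with its linearity API;
* `evalI_span_singleton` : `evalI Θ (span {x}) = evalD Θ (divisor x)` for `0 ≠ x ∈ 𝓞 F`;
* `isCoprime_iff` : coprimality of integers in terms of primes;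
* `InX.evalD_divisor` : a function in the X-space kills the divisor of every `x ∈ Fˣ` which is a
  unit at all primes dividing `m`;  `InX.split_pl` : the split condition in `Pl` form.
-/

set_option autoImplicit false
set_option linter.unusedSectionVars false

namespace Fermat.Agent.S14C.SIXLib

open IsDedekindDomain NumberField
open Fermat.Agent.S14C.SIDefs (Pl ord nrm Above CongMod divisor divisor_apply)

variable {F : Type} [Field F] [NumberField F] {p : ℕ}

/-! ### The two symbols agree -/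

theorem dite_choose_congr {P Q : ZMod p → Prop} (h : P = Q) {d₁ : Decidable (∃ k, P k)}
    {d₂ : Decidable (∃ k, Q k)} :
    (@dite _ (∃ k, P k) d₁ (fun h => h.choose) fun _ => (0 : ZMod p)) =
      @dite _ (∃ k, Q k) d₂ (fun h => h.choose) fun _ => 0 := by
  subst h
  congr

/-- The symbol of `XDefs` (integral arguments, ideal membership) is the symbol of `SI/Defs`
(field arguments, valuations). No hypothesis is needed. -/
theorem sym_eq (ζ a : 𝓞 F) (v : Pl F) :
    S14C.sym p ζ a v.asIdeal = SIDefs.sym p (ζ : F) v (a : F) := by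
  have hpred : (fun k : ZMod p =>
        a ^ ((Ideal.absNorm v.asIdeal - 1) / p) - ζ ^ k.val ∈ v.asIdeal) =
      (fun k : ZMod p => CongMod v ((a : F) ^ ((nrm v - 1) / p)) ((ζ : F) ^ k.val)) := by
    funext k
    apply propext
    unfold CongMod nrm
    rw [← HeightOneSpectrum.valuation_lt_one_iff_mem (K := F)]
    simp
  unfold S14C.sym SIDefs.sym
  exact dite_choose_congr hpred


/-! ### Evaluation on divisors -/

/-- Evaluation of a function on primes on a divisor: `∑_v D(v) • Θ(v)`. -/
noncomputable def evalD (Θ : Ideal (𝓞 F) → ZMod p) (D : Pl F →₀ ℤ) : ZMod p :=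
  D.sum fun v n => (n : ZMod p) * Θ v.asIdeal

theorem evalD_zero (Θ : Ideal (𝓞 F) → ZMod p) : evalD Θ 0 = 0 := by
  simp [evalD]

theorem evalD_add (Θ : Ideal (𝓞 F) → ZMod p) (D D' : Pl F →₀ ℤ) :
    evalD Θ (D + D') = evalD Θ D + evalD Θ D' := by
  unfold evalD
  exact Finsupp.sum_add_index' (by simp) (by intros; push_cast; ring)

theorem evalD_neg (Θ : Ideal (𝓞 F) → ZMod p) (D : Pl F →₀ ℤ) : evalD Θ (-D) = - evalD Θ D := by
  have h := evalD_add Θ D (-D)
  rw [add_neg_cancel, evalD_zero] at h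
  exact eq_neg_of_add_eq_zero_right h.symm

theorem evalD_sub (Θ : Ideal (𝓞 F) → ZMod p) (D D' : Pl F →₀ ℤ) :
    evalD Θ (D - D') = evalD Θ D - evalD Θ D' := by
  rw [sub_eq_add_neg, evalD_add, evalD_neg, sub_eq_add_neg]

theorem evalD_eq_sum (Θ : Ideal (𝓞 F) → ZMod p) (D : Pl F →₀ ℤ) (s : Finset (Pl F))
    (hs : D.support ⊆ s) : evalD Θ D = ∑ v ∈ s, (D v : ZMod p) * Θ v.asIdeal := by
  unfold evalD
  exact Finsupp.sum_of_support_subset D hs _ (by simp)

theorem evalD_single (Θ : Ideal (𝓞 F) → ZMod p) (v : Pl F) (n : ℤ) :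
    evalD Θ (Finsupp.single v n) = n * Θ v.asIdeal := by
  unfold evalD
  rw [Finsupp.sum_single_index (by simp)]

theorem evalD_zsmul (Θ : Ideal (𝓞 F) → ZMod p) (c : ℤ) (D : Pl F →₀ ℤ) :
    evalD Θ (c • D) = c * evalD Θ D := by
  classical
  rw [evalD_eq_sum Θ (c • D) D.support Finsupp.support_smul, evalD_eq_sum Θ D D.support subset_rfl,
    Finset.mul_sum]
  apply Finset.sum_congr rfl
  intro v _
  simp only [Finsupp.smul_apply, smul_eq_mul]
  push_cast
  ring

/-- `evalD` only depends on the divisor modulo `p`, and only at the primes where `Θ ≠ 0`. -/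
theorem evalD_congr (Θ : Ideal (𝓞 F) → ZMod p) {D D' : Pl F →₀ ℤ}
    (h : ∀ v : Pl F, (p : ℤ) ∣ D v - D' v ∨ Θ v.asIdeal = 0) : evalD Θ D = evalD Θ D' := by
  classical
  rw [evalD_eq_sum Θ D (D.support ∪ D'.support) Finset.subset_union_left,
    evalD_eq_sum Θ D' (D.support ∪ D'.support) Finset.subset_union_right]
  apply Finset.sum_congr rfl
  intro v _
  rcases h v with h1 | h1
  · have h2 : ((D' v : ℤ) : ZMod p) = (D v : ZMod p) :=
      (ZMod.intCast_eq_intCast_iff_dvd_sub _ _ p).mpr h1
    rw [h2]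
  · rw [h1, mul_zero, mul_zero]

/-! ### Divisors of products and quotients -/

theorem ord_mul' (v : Pl F) {x y : F} (hx : x ≠ 0) (hy : y ≠ 0) :
    ord v (x * y) = ord v x + ord v y := by
  unfold ord
  rw [map_mul, WithZero.log_mul ((Valuation.ne_zero_iff _).mpr hx)
    ((Valuation.ne_zero_iff _).mpr hy)]
  ring

theorem ord_div' (v : Pl F) {x y : F} (hx : x ≠ 0) (hy : y ≠ 0) :
    ord v (x / y) = ord v x - ord v y := by
  unfold ord
  rw [map_div₀, WithZero.log_div ((Valuation.ne_zero_iff _).mpr hx)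
    ((Valuation.ne_zero_iff _).mpr hy)]
  ring

theorem divisor_mul {x y : F} (hx : x ≠ 0) (hy : y ≠ 0) :
    divisor (x * y) = divisor x + divisor y := by
  ext v
  simp [ord_mul' v hx hy]

theorem divisor_div {x y : F} (hx : x ≠ 0) (hy : y ≠ 0) :
    divisor (x / y) = divisor x - divisor y := by
  ext v
  simp [ord_div' v hx hy]

/-! ### `evalI` on principal ideals -/

theorem ord_coe_eq_count (v : Pl F) {a : 𝓞 F} (ha : a ≠ 0) :
    ord v (a : F) =
      ((Associates.mk v.asIdeal).count (Associates.mk (Ideal.span {a})).factors : ℤ) := by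
  unfold ord
  rw [RingOfIntegers.coe_eq_algebraMap, HeightOneSpectrum.valuation_of_algebraMap,
    v.intValuation_if_neg ha, WithZero.log_exp, neg_neg]

theorem ord_coe_nonneg (v : Pl F) (a : 𝓞 F) : 0 ≤ ord v (a : F) := by
  by_cases ha : a = 0
  · subst ha
    simp [ord]
  · rw [ord_coe_eq_count v ha]
    exact Int.natCast_nonneg _

theorem ord_coe_eq_zero_iff (v : Pl F) {a : 𝓞 F} (ha : a ≠ 0) :
    ord v (a : F) = 0 ↔ a ∉ v.asIdeal := by
  unfold ord
  rw [RingOfIntegers.coe_eq_algebraMap, HeightOneSpectrum.valuation_of_algebraMap, neg_eq_zero,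
    ← HeightOneSpectrum.intValuation_lt_one_iff_mem]
  have h0 : v.intValuation a ≠ 0 := v.intValuation_ne_zero a ha
  constructor
  · intro h hlt
    have h1 : v.intValuation a = 1 := by
      rw [← WithZero.exp_log h0, h, WithZero.exp_zero]
    rw [h1] at hlt
    exact lt_irrefl _ hlt
  · intro h
    have h1 : v.intValuation a = 1 := le_antisymm (v.intValuation_le_one a) (not_lt.mp h)
    rw [h1]
    simp

/-- `evalI Θ (x) = ∑_v ord_v(x) • Θ(v)` for a nonzero integer `x`. -/
theorem evalI_span_singleton (Θ : Ideal (𝓞 F) → ZMod p) {x : 𝓞 F} (hx : x ≠ 0) :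
    evalI Θ (Ideal.span {x}) = evalD Θ (divisor (x : F)) := by
  classical
  have hI : (Ideal.span {x} : Ideal (𝓞 F)) ≠ 0 := by
    simpa using hx
  have hsub : Function.mulSupport (fun v : Pl F => v.maxPowDividing (Ideal.span {x})) ⊆
      ((divisor (x : F)).support : Set (Pl F)) := by
    intro v hv
    simp only [Function.mem_mulSupport, HeightOneSpectrum.maxPowDividing] at hv
    simp only [Finset.mem_coe, Finsupp.mem_support_iff, divisor_apply, ord_coe_eq_count v hx]
    intro h0
    apply hv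
    have h1 : (Associates.mk v.asIdeal).count (Associates.mk (Ideal.span {x})).factors = 0 := by
      exact_mod_cast h0
    rw [h1, pow_zero]
  have h1 := Ideal.finprod_heightOneSpectrum_factorization hI
  rw [finprod_eq_prod_of_mulSupport_subset _ hsub] at h1
  have hne : ∀ v ∈ (divisor (x : F)).support,
      HeightOneSpectrum.maxPowDividing v (Ideal.span {x}) ≠ ⊥ := by
    intro v _
    unfold HeightOneSpectrum.maxPowDividing
    exact pow_ne_zero _ v.ne_bot
  rw [← h1, EvalI.evalI_prod Θ _ _ hne, evalD_eq_sum Θ _ _ subset_rfl]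
  apply Finset.sum_congr rfl
  intro v _
  simp only [HeightOneSpectrum.maxPowDividing]
  rw [EvalI.evalI_pow, EvalI.evalI_prime Θ v.isPrime v.ne_bot, divisor_apply, ord_coe_eq_count v hx]
  push_cast
  rfl

/-! ### Coprimality in terms of primes -/

theorem isCoprime_iff (x y : 𝓞 F) :
    IsCoprime x y ↔ ∀ v : Pl F, y ∈ v.asIdeal → x ∉ v.asIdeal := by
  rw [← Ideal.isCoprime_span_singleton_iff, Ideal.isCoprime_iff_sup_eq]
  constructor
  · intro h v hy hx
    have hle : Ideal.span {x} ⊔ Ideal.span {y} ≤ v.asIdeal :=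
      sup_le ((Ideal.span_singleton_le_iff_mem _).mpr hx) ((Ideal.span_singleton_le_iff_mem _).mpr hy)
    rw [h] at hle
    exact v.isPrime.ne_top (top_le_iff.mp hle)
  · intro h
    by_contra hne
    obtain ⟨M, hM, hle⟩ := Ideal.exists_le_maximal _ hne
    have hM0 : M ≠ ⊥ := Ring.ne_bot_of_isMaximal_of_not_isField hM (RingOfIntegers.not_isField F)
    refine h ⟨M, hM.isPrime, hM0⟩ ?_ ?_
    · exact hle (Ideal.mem_sup_right (Ideal.mem_span_singleton_self y))
    · exact hle (Ideal.mem_sup_left (Ideal.mem_span_singleton_self x))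

theorem isCoprime_natCast_iff (x : 𝓞 F) (m : ℕ) :
    IsCoprime x (m : 𝓞 F) ↔ ∀ v : Pl F, (m : 𝓞 F) ∈ v.asIdeal → x ∉ v.asIdeal :=
  isCoprime_iff x m

/-- The primes dividing a nonzero integer form a finite set. -/
theorem finite_mem {y : 𝓞 F} (hy : y ≠ 0) : {v : Pl F | y ∈ v.asIdeal}.Finite := by
  have h := Ideal.finite_factors (R := 𝓞 F) (I := Ideal.span {y}) (by simpa using hy)
  refine h.subset ?_
  intro v hv
  simp only [Set.mem_ofPred_eq] at hv ⊢
  exact Ideal.dvd_span_singleton.mpr hv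

theorem finite_natCast_mem {m : ℕ} (hm : m ≠ 0) : {v : Pl F | (m : 𝓞 F) ∈ v.asIdeal}.Finite :=
  finite_mem (by exact_mod_cast hm)

theorem above_iff_mem (v : Pl F) : Above p v ↔ (p : 𝓞 F) ∈ v.asIdeal := by
  unfold Above
  rw [← HeightOneSpectrum.valuation_lt_one_iff_mem (K := F)]
  simp

theorem natCast_mem_of_above {m : ℕ} (hpm : p ∣ m) (v : Pl F) (hv : Above p v) :
    (m : 𝓞 F) ∈ v.asIdeal := by
  obtain ⟨c, rfl⟩ := hpm
  rw [Nat.cast_mul]
  exact Ideal.mul_mem_right _ _ ((above_iff_mem v).mp hv)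


/-! ### The X-space in divisor language -/

theorem valuation_le_one_of_ord_nonneg (v : Pl F) {y : F} (hy : y ≠ 0) (h : 0 ≤ ord v y) :
    v.valuation F y ≤ 1 := by
  unfold ord at h
  have h0 : v.valuation F y ≠ 0 := (Valuation.ne_zero_iff _).mpr hy
  rw [← WithZero.exp_log h0, ← WithZero.exp_zero, WithZero.exp_le_exp]
  omega

/-- The split condition of the X-space, in `Pl` form with the symbol of `SI/Defs`. -/
theorem InX.split_pl {ζ a : 𝓞 F} {m : ℕ} {Θ : Ideal (𝓞 F) → ZMod p} (h : InX p ζ a m Θ)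
    (v : Pl F) (hm : (m : 𝓞 F) ∉ v.asIdeal) (hs : SIDefs.sym p (ζ : F) v (a : F) = 0) :
    Θ v.asIdeal = 0 :=
  h.split v.asIdeal v.isPrime v.ne_bot hm (by rw [sym_eq]; exact hs)

/-- A function in the X-space kills the divisor of every `x ∈ Fˣ` which is a unit at all primes
dividing `m`. -/
theorem InX.evalD_divisor {ζ a : 𝓞 F} {m : ℕ} {Θ : Ideal (𝓞 F) → ZMod p} (h : InX p ζ a m Θ)
    {x : F} (hx0 : x ≠ 0) (hx : ∀ v : Pl F, (m : 𝓞 F) ∈ v.asIdeal → ord v x = 0) :
    evalD Θ (divisor x) = 0 := by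
  classical
  by_cases hm : m = 0
  · have hD : divisor x = 0 := by
      ext v
      simp only [divisor_apply, Finsupp.coe_zero, Pi.zero_apply]
      exact hx v (by simp [hm])
    rw [hD, evalD_zero]
  have hS0 : ∀ v : Pl F, (m : 𝓞 F) ∈ v.asIdeal →
      v ∈ (finite_natCast_mem (F := F) hm).toFinset ∪ (divisor x).support := by
    intro v hv
    exact Finset.mem_union_left _ ((Set.Finite.mem_toFinset _).mpr hv)
  obtain ⟨w, hw0, hw⟩ := Approx.exists_int_val
    ((finite_natCast_mem (F := F) hm).toFinset ∪ (divisor x).support)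
    (fun v => (- ord v x).toNat)
  have hwo : ∀ v ∈ (finite_natCast_mem (F := F) hm).toFinset ∪ (divisor x).support,
      ord v (w : F) = ((- ord v x).toNat : ℤ) := by
    intro v hv
    have h1 : ord v (w : F) = - WithZero.log (v.valuation F (w : F)) := rfl
    rw [h1, RingOfIntegers.coe_eq_algebraMap, HeightOneSpectrum.valuation_of_algebraMap, hw v hv,
      WithZero.log_exp, neg_neg]
  have hwF : (w : F) ≠ 0 := by
    simpa using hw0
  have hwx : (w : F) * x ≠ 0 := mul_ne_zero hwF hx0
  have hu : ∀ v : Pl F, 0 ≤ ord v ((w : F) * x) := by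
    intro v
    rw [ord_mul' v hwF hx0]
    by_cases hv : v ∈ (finite_natCast_mem (F := F) hm).toFinset ∪ (divisor x).support
    · rw [hwo v hv]
      omega
    · have h0 : ord v x = 0 := by
        by_contra hne
        exact hv (Finset.mem_union_right _ (by simpa [Finsupp.mem_support_iff] using hne))
      rw [h0, add_zero]
      exact ord_coe_nonneg v w
  obtain ⟨u, hu'⟩ := HeightOneSpectrum.mem_integers_of_valuation_le_one F ((w : F) * x)
    (fun v => valuation_le_one_of_ord_nonneg v hwx (hu v))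
  have hu'' : (u : F) = (w : F) * x := hu'
  have hu0 : u ≠ 0 := by
    rintro rfl
    exact hwx (by simpa using hu''.symm)
  have hcw : IsCoprime w (m : 𝓞 F) := by
    rw [isCoprime_natCast_iff]
    intro v hv
    rw [← ord_coe_eq_zero_iff v hw0, hwo v (hS0 v hv), hx v hv]
    simp
  have hcu : IsCoprime u (m : 𝓞 F) := by
    rw [isCoprime_natCast_iff]
    intro v hv
    rw [← ord_coe_eq_zero_iff v hu0, hu'', ord_mul' v hwF hx0, hwo v (hS0 v hv), hx v hv]
    simp
  have e1 := h.principal w hcw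
  have e2 := h.principal u hcu
  rw [evalI_span_singleton Θ hw0] at e1
  rw [evalI_span_singleton Θ hu0] at e2
  have hxq : x = (u : F) / (w : F) := by
    rw [hu'', mul_div_cancel_left₀ _ hwF]
  have hu0F : (u : F) ≠ 0 := by
    rw [hu'']
    exact hwx
  rw [hxq, divisor_div hu0F hwF, evalD_sub, e1, e2, sub_zero]

end Fermat.Agent.S14C.SIXLib
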