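import Mathlib

/-!
# S14C — analytic second inequality (repair lemma [S2an]): abstract Euler-product comparison

`ιF`, `ιM` play the role of the primes of two number fields `F ⊂ M` (with `[M : F] = p`),
`below` is "the prime below", `T v = N(v)^(-s)`, `U w = N(w)^(-s)`, and `a v`, `b v` are the
values at `v` of two class characters of `F` of exponent `p`.

* `generic_bound` : the limiting argument (finite partial products);
* `core_bound`    : one character `a` detecting inert primes, `b` trivial on split primes;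
* `core_bound2`   : two characters `a`, `b`, primes where one of them is nontrivial are inert.
-/

set_option autoImplicit false

open Filter Topology Finset

namespace Fermat.Agent.S14C.SecondIneqAn

/-- `∏_{j<p} (x - ζ^j y) = x^p - y^p` for a primitive `p`-th root of unity `ζ`. -/
theorem prod_range_sub_pow_mul {K : Type*} [Field K] {ζ : K} {p : ℕ} (hp : 0 < p)
    (hζ : IsPrimitiveRoot ζ p) (x y : K) :
    ∏ j ∈ range p, (x - ζ ^ j * y) = x ^ p - y ^ p := by
  classical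
  rw [hζ.pow_sub_pow_eq_prod_sub_mul x y hp]
  refine Finset.prod_nbij (fun j => ζ ^ j) ?_ ?_ ?_ (fun _ _ => rfl)
  · intro j _
    simp only [Polynomial.mem_nthRootsFinset hp]
    rw [← pow_mul, mul_comm, pow_mul, hζ.pow_eq_one, one_pow]
  · intro i hi j hj hij
    exact hζ.pow_inj (by simpa using hi) (by simpa using hj) hij
  · intro ξ hξ
    have hξ' : ξ ^ p = 1 := by
      have := hξ
      simp only [Finset.mem_coe, Polynomial.mem_nthRootsFinset hp] at this
      exact this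
    have : NeZero p := ⟨hp.ne'⟩
    obtain ⟨i, hi, rfl⟩ := hζ.eq_pow_of_pow_eq_one hξ'
    exact ⟨i, by simpa using hi, rfl⟩

/-- `∏_{j<p} (1 - ζ^j y) = 1 - y^p` for `ζ^p = 1`, `ζ ≠ 1`, `p` prime. -/
theorem prod_one_sub_pow_mul {p : ℕ} (hp : p.Prime) {ζ : ℂ} (h1 : ζ ^ p = 1) (h2 : ζ ≠ 1)
    (y : ℂ) : ∏ j ∈ range p, (1 - ζ ^ j * y) = 1 - y ^ p := by
  have hprim : IsPrimitiveRoot ζ p := by
    have : Fact p.Prime := ⟨hp⟩
    have h := orderOf_eq_prime h1 h2
    rw [← h]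
    exact IsPrimitiveRoot.orderOf ζ
  rw [prod_range_sub_pow_mul hp.pos hprim, one_pow]

section Generic

variable {ιF ιM : Type*}

/-- **Generic comparison of two infinite products along a map of index sets.** -/
theorem generic_bound [DecidableEq ιF] (below : ιM → ιF) (S : Finset ιF)
    (g : ιM → ℝ) (hg : ∀ w, 0 ≤ g w) (n : ιF → ℝ) (e : ℕ) (K k : ℝ)
    (hK : 1 ≤ K) (hk0 : 0 < k) (hk1 : k ≤ 1)
    (hloc : ∀ v, v ∉ S → ∀ W : Finset ιM, (∀ w ∈ W, below w = v) → (∏ w ∈ W, g w) ^ e ≤ n v)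
    (hlocS : ∀ v, v ∈ S → ∀ W : Finset ιM, (∀ w ∈ W, below w = v) →
      (∏ w ∈ W, g w) ^ e ≤ K * n v)
    (hn1 : ∀ v, v ∉ S → 1 ≤ n v) (hnS : ∀ v, v ∈ S → k ≤ n v)
    {NF : ℝ} (hNF : HasProd n NF) {ZM : ℝ} (hZM : HasProd g ZM) :
    ZM ^ e ≤ K ^ S.card * (k⁻¹ ^ S.card * NF) := by
  classical
  have hnpos : ∀ v, 0 < n v := fun v => by
    by_cases hv : v ∈ S
    · exact lt_of_lt_of_le hk0 (hnS v hv)
    · exact lt_of_lt_of_le one_pos (hn1 v hv)
  -- finite partial products of `n` are bounded by the full product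
  have hC : ∀ V : Finset ιF, ∏ v ∈ V, n v ≤ k⁻¹ ^ S.card * NF := by
    intro V
    have hlim : Tendsto (fun V' : Finset ιF => ∏ v ∈ V', n v) atTop (𝓝 NF) := hNF
    have hev : ∀ᶠ V' : Finset ιF in atTop, k ^ S.card * ∏ v ∈ V, n v ≤ ∏ v ∈ V', n v := by
      filter_upwards [eventually_ge_atTop V] with V' hVV'
      rw [← Finset.prod_sdiff hVV']
      refine mul_le_mul_of_nonneg_right ?_ (Finset.prod_nonneg fun v _ => (hnpos v).le)
      calc k ^ S.card ≤ k ^ ((V' \ V).filter (· ∈ S)).card := by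
            refine pow_le_pow_of_le_one hk0.le hk1 (Finset.card_le_card ?_)
            intro v hv
            exact (Finset.mem_filter.mp hv).2
        _ = ∏ v ∈ V' \ V, (if v ∈ S then k else 1) := by
            rw [Finset.prod_ite, Finset.prod_const, Finset.prod_const_one, mul_one]
        _ ≤ ∏ v ∈ V' \ V, n v := by
            refine Finset.prod_le_prod (fun v _ => by split_ifs <;> positivity) (fun v _ => ?_)
            split_ifs with hvS
            · exact hnS v hvS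
            · exact hn1 v hvS
    have h := ge_of_tendsto hlim hev
    have hkS : (0 : ℝ) < k ^ S.card := by positivity
    have e1 : k⁻¹ ^ S.card * k ^ S.card = 1 := by
      rw [← mul_pow, inv_mul_cancel₀ hk0.ne', one_pow]
    calc ∏ v ∈ V, n v = k⁻¹ ^ S.card * (k ^ S.card * ∏ v ∈ V, n v) := by
          rw [← mul_assoc, e1, one_mul]
      _ ≤ k⁻¹ ^ S.card * NF := by
          have : (0 : ℝ) ≤ k⁻¹ ^ S.card := by positivity
          exact mul_le_mul_of_nonneg_left h this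
  -- every finite partial product on the `M`-side is bounded
  have hZMt : Tendsto (fun W : Finset ιM => ∏ w ∈ W, g w) atTop (𝓝 ZM) := hZM
  have hlimM : Tendsto (fun W : Finset ιM => (∏ w ∈ W, g w) ^ e) atTop (𝓝 (ZM ^ e)) :=
    Filter.Tendsto.pow hZMt e
  refine le_of_tendsto' hlimM (fun W => ?_)
  have hfibre : ∏ w ∈ W, g w
      = ∏ v ∈ W.image below, ∏ w ∈ W.filter (fun w => below w = v), g w :=
    (Finset.prod_fiberwise_of_maps_to (fun w hw => Finset.mem_image_of_mem below hw) _).symm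
  rw [hfibre, ← Finset.prod_pow]
  calc ∏ v ∈ W.image below, (∏ w ∈ W.filter (fun w => below w = v), g w) ^ e
      ≤ ∏ v ∈ W.image below, ((if v ∈ S then K else 1) * n v) := by
        refine Finset.prod_le_prod
          (fun v _ => pow_nonneg (Finset.prod_nonneg fun w _ => hg w) e) (fun v _ => ?_)
        have hW : ∀ w ∈ W.filter (fun w => below w = v), below w = v :=
          fun w hw => (Finset.mem_filter.mp hw).2
        split_ifs with hvS
        · exact hlocS v hvS _ hW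
        · rw [one_mul]; exact hloc v hvS _ hW
    _ = (∏ v ∈ W.image below, (if v ∈ S then K else 1)) * ∏ v ∈ W.image below, n v :=
        Finset.prod_mul_distrib
    _ ≤ K ^ S.card * (k⁻¹ ^ S.card * NF) := by
        refine mul_le_mul ?_ (hC _) (Finset.prod_nonneg fun v _ => (hnpos v).le) (by positivity)
        rw [Finset.prod_ite, Finset.prod_const, Finset.prod_const_one, mul_one]
        refine pow_le_pow_right₀ hK (Finset.card_le_card ?_)
        intro v hv
        exact (Finset.mem_filter.mp hv).2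

end Generic

section Local

variable {ιF ιM : Type*}

theorem norm_one_sub_mul_le {z : ℂ} (hz : ‖z‖ = 1) {t : ℝ} (ht0 : 0 < t) (ht : t ≤ 1 / 2) :
    ‖1 - z * (t : ℂ)‖ ≤ 3 / 2 := by
  have h1 : ‖z * (t : ℂ)‖ = t := by
    rw [norm_mul, hz, one_mul, Complex.norm_real, Real.norm_of_nonneg ht0.le]
  calc ‖1 - z * (t : ℂ)‖ ≤ ‖(1 : ℂ)‖ + ‖z * (t : ℂ)‖ := norm_sub_le _ _
    _ = 1 + t := by rw [norm_one, h1]
    _ ≤ 3 / 2 := by linarith

theorem norm_one_sub_mul_ge {z : ℂ} (hz : ‖z‖ = 1) {t : ℝ} (ht0 : 0 < t) (ht : t ≤ 1 / 2) :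
    1 / 2 ≤ ‖1 - z * (t : ℂ)‖ := by
  have h1 : ‖z * (t : ℂ)‖ = t := by
    rw [norm_mul, hz, one_mul, Complex.norm_real, Real.norm_of_nonneg ht0.le]
  have h2 := norm_sub_norm_le (1 : ℂ) (z * (t : ℂ))
  rw [norm_one, h1] at h2
  linarith

theorem two_thirds_le_norm_inv {z : ℂ} (hz : ‖z‖ = 1) {t : ℝ} (ht0 : 0 < t) (ht : t ≤ 1 / 2) :
    (2 / 3 : ℝ) ≤ ‖(1 - z * (t : ℂ))⁻¹‖ := by
  rw [norm_inv]
  have h1 := norm_one_sub_mul_le hz ht0 ht
  have h2 := norm_one_sub_mul_ge hz ht0 ht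
  rw [le_inv_comm₀ (by norm_num) (by linarith)]
  norm_num
  linarith

theorem pow_le_half {t : ℝ} (ht0 : 0 < t) (ht : t ≤ 1 / 2) {p : ℕ} (hp : 1 ≤ p) :
    t ^ p ≤ 1 / 2 :=
  calc t ^ p ≤ t ^ 1 := pow_le_pow_of_le_one ht0.le (by linarith) hp
    _ = t := pow_one _
    _ ≤ 1 / 2 := ht

theorem one_le_inv_one_sub {t : ℝ} (ht0 : 0 < t) (ht : t ≤ 1 / 2) : (1 : ℝ) ≤ (1 - t)⁻¹ := by
  rw [one_le_inv₀ (by linarith)]
  linarith

theorem inv_one_sub_le_two {t : ℝ} (ht0 : 0 < t) (ht : t ≤ 1 / 2) : (1 - t)⁻¹ ≤ (2 : ℝ) := by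
  rw [inv_le_comm₀ (by linarith) (by norm_num)]
  linarith

/-- `M`-side local bound, valid at every place. -/
theorem prodM_le_gen {p : ℕ} (below : ιM → ιF) (T : ιF → ℝ) (U : ιM → ℝ)
    (hT0 : ∀ v, 0 < T v) (hT : ∀ v, T v ≤ 1 / 2)
    (hU0 : ∀ w, 0 < U w) (hUT : ∀ w, U w ≤ T (below w))
    (hfib : ∀ (v : ιF) (W : Finset ιM), (∀ w ∈ W, below w = v) → W.card ≤ p)
    (v : ιF) (W : Finset ιM) (hW : ∀ w ∈ W, below w = v) :
    ∏ w ∈ W, (1 - U w)⁻¹ ≤ (1 - T v)⁻¹ ^ p := by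
  have hTv := hT v
  have hTv0 := hT0 v
  have h1T : 0 < 1 - T v := by linarith
  calc ∏ w ∈ W, (1 - U w)⁻¹ ≤ ∏ _w ∈ W, (1 - T v)⁻¹ := by
        refine Finset.prod_le_prod (fun w _ => ?_) (fun w hw => ?_)
        · have := hUT w; have := hT (below w); have := hU0 w
          exact inv_nonneg.mpr (by linarith)
        · have h := hUT w
          rw [hW w hw] at h
          exact inv_anti₀ h1T (by linarith)
    _ = (1 - T v)⁻¹ ^ W.card := by rw [Finset.prod_const]
    _ ≤ (1 - T v)⁻¹ ^ p := pow_le_pow_right₀ (one_le_inv_one_sub hTv0 hTv) (hfib v W hW)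

/-- `M`-side local bound at an inert place. -/
theorem prodM_le_inert {p : ℕ} (hp : 1 ≤ p) (below : ιM → ιF) (T : ιF → ℝ) (U : ιM → ℝ)
    (hT0 : ∀ v, 0 < T v) (hT : ∀ v, T v ≤ 1 / 2) (v : ιF)
    (huniq : ∀ w w', below w = v → below w' = v → w = w')
    (hU : ∀ w, below w = v → U w = T v ^ p)
    (W : Finset ιM) (hW : ∀ w ∈ W, below w = v) :
    ∏ w ∈ W, (1 - U w)⁻¹ ≤ (1 - T v ^ p)⁻¹ := by
  have hTp0 : 0 < T v ^ p := pow_pos (hT0 v) p
  have hTp : T v ^ p ≤ 1 / 2 := pow_le_half (hT0 v) (hT v) hp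
  rcases Finset.eq_empty_or_nonempty W with hWe | ⟨w, hw⟩
  · rw [hWe, Finset.prod_empty]
    exact one_le_inv_one_sub hTp0 hTp
  · have hWw : W = {w} := by
      refine Finset.eq_singleton_iff_unique_mem.mpr ⟨hw, fun w' hw' => ?_⟩
      exact huniq w' w (hW w' hw') (hW w hw)
    rw [hWw, Finset.prod_singleton, hU w (hW w hw)]

end Local

section TwoChar

variable {ιF ιM : Type*}

/-- The local factor on the `F`-side for the `p²` characters `a^i b^j`. -/
noncomputable def locF2 (p : ℕ) (a b : ιF → ℂ) (T : ιF → ℝ) (v : ιF) : ℂ :=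
  ∏ i ∈ range p, ∏ j ∈ range p, (1 - a v ^ i * b v ^ j * (T v : ℂ))⁻¹

theorem norm_pow_mul_pow {p : ℕ} (hp : p ≠ 0) {x y : ℂ} (hx : x ^ p = 1) (hy : y ^ p = 1)
    (i j : ℕ) : ‖x ^ i * y ^ j‖ = 1 := by
  rw [norm_mul, norm_pow, norm_pow, Complex.norm_eq_one_of_pow_eq_one hx hp,
    Complex.norm_eq_one_of_pow_eq_one hy hp, one_pow, one_pow, one_mul]

theorem two_thirds_pow_le_norm_locF2 {p : ℕ} (hp : p ≠ 0) (a b : ιF → ℂ) (T : ιF → ℝ)
    (ha : ∀ v, a v ^ p = 1) (hb : ∀ v, b v ^ p = 1)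
    (hT0 : ∀ v, 0 < T v) (hT : ∀ v, T v ≤ 1 / 2) (v : ιF) :
    (2 / 3 : ℝ) ^ (p * p) ≤ ‖locF2 p a b T v‖ := by
  unfold locF2
  rw [norm_prod]
  calc (2 / 3 : ℝ) ^ (p * p) = ∏ _i ∈ range p, (2 / 3 : ℝ) ^ p := by
        rw [Finset.prod_const, Finset.card_range, ← pow_mul]
    _ ≤ ∏ i ∈ range p, ‖∏ j ∈ range p, (1 - a v ^ i * b v ^ j * (T v : ℂ))⁻¹‖ := by
      refine Finset.prod_le_prod (fun _ _ => by positivity) (fun i _ => ?_)
      rw [norm_prod]
      calc (2 / 3 : ℝ) ^ p = ∏ _j ∈ range p, (2 / 3 : ℝ) := by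
            rw [Finset.prod_const, Finset.card_range]
        _ ≤ ∏ j ∈ range p, ‖(1 - a v ^ i * b v ^ j * (T v : ℂ))⁻¹‖ := by
          refine Finset.prod_le_prod (fun _ _ => by norm_num) (fun j _ => ?_)
          exact two_thirds_le_norm_inv (norm_pow_mul_pow hp (ha v) (hb v) i j) (hT0 v) (hT v)

theorem locF2_split {p : ℕ} (a b : ιF → ℂ) (T : ιF → ℝ) (v : ιF) (hav : a v = 1)
    (hbv : b v = 1) : locF2 p a b T v = (((1 - T v)⁻¹ ^ (p * p) : ℝ) : ℂ) := by
  unfold locF2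
  simp [hav, hbv, pow_mul]

theorem locF2_inert {p : ℕ} (hp : p.Prime) (a b : ιF → ℂ) (T : ιF → ℝ) (v : ιF)
    (hav : a v ^ p = 1) (hbv : b v ^ p = 1) (h : a v ≠ 1 ∨ b v ≠ 1) :
    locF2 p a b T v = (((1 - T v ^ p)⁻¹ ^ p : ℝ) : ℂ) := by
  unfold locF2
  have key : ∏ i ∈ range p, ∏ j ∈ range p, (1 - a v ^ i * b v ^ j * (T v : ℂ))
      = (1 - (T v : ℂ) ^ p) ^ p := by
    by_cases hb1 : b v = 1
    · have ha1 : a v ≠ 1 := h.resolve_right (not_not.mpr hb1)
      have h1 : ∀ i ∈ range p, ∏ j ∈ range p, (1 - a v ^ i * b v ^ j * (T v : ℂ))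
          = (1 - a v ^ i * (T v : ℂ)) ^ p := by
        intro i _
        simp [hb1]
      rw [Finset.prod_congr rfl h1, Finset.prod_pow, prod_one_sub_pow_mul hp hav ha1]
    · have h1 : ∀ i ∈ range p, ∏ j ∈ range p, (1 - a v ^ i * b v ^ j * (T v : ℂ))
          = 1 - (T v : ℂ) ^ p := by
        intro i _
        have h2 : ∏ j ∈ range p, (1 - a v ^ i * b v ^ j * (T v : ℂ))
            = ∏ j ∈ range p, (1 - b v ^ j * (a v ^ i * (T v : ℂ))) :=
          Finset.prod_congr rfl (fun j _ => by ring)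
        rw [h2, prod_one_sub_pow_mul hp hbv hb1, mul_pow, ← pow_mul, mul_comm i p, pow_mul, hav,
          one_pow, one_mul]
      rw [Finset.prod_congr rfl h1, Finset.prod_const, Finset.card_range]
  have e : ∏ i ∈ range p, ∏ j ∈ range p, (1 - a v ^ i * b v ^ j * (T v : ℂ))⁻¹
      = (∏ i ∈ range p, ∏ j ∈ range p, (1 - a v ^ i * b v ^ j * (T v : ℂ)))⁻¹ := by
    rw [← Finset.prod_inv_distrib]
    exact Finset.prod_congr rfl (fun i _ => Finset.prod_inv_distrib _)
  rw [e, key]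
  push_cast
  rw [inv_pow]

/-- **Two-character Euler product comparison.**  If `a`, `b` are (the values at the primes of
`F` of) two characters of exponent `p` such that every prime outside `S` at which one of them is
nontrivial is inert in `M`, then `ζ_M(s)^p ≤ C · ‖∏_{i,j<p} L_F(s, a^i b^j)‖`. -/
theorem core_bound2 [DecidableEq ιF] {p : ℕ} (hp : p.Prime) (below : ιM → ιF) (S : Finset ιF)
    (T : ιF → ℝ) (U : ιM → ℝ)
    (hT0 : ∀ v, 0 < T v) (hT : ∀ v, T v ≤ 1 / 2)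
    (hU0 : ∀ w, 0 < U w) (hUT : ∀ w, U w ≤ T (below w))
    (hfib : ∀ (v : ιF) (W : Finset ιM), (∀ w ∈ W, below w = v) → W.card ≤ p)
    (a b : ιF → ℂ) (ha : ∀ v, a v ^ p = 1) (hb : ∀ v, b v ^ p = 1)
    (hinert : ∀ v, v ∉ S → (a v ≠ 1 ∨ b v ≠ 1) →
      ∀ w w', below w = v → below w' = v → w = w')
    (hinertU : ∀ v, v ∉ S → (a v ≠ 1 ∨ b v ≠ 1) → ∀ w, below w = v → U w = T v ^ p)
    {ZF : ℂ} (hZF : HasProd (locF2 p a b T) ZF)
    {ZM : ℝ} (hZM : HasProd (fun w => (1 - U w)⁻¹) ZM) :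
    ZM ^ p ≤ ((3 : ℝ) ^ (p * p)) ^ S.card * ((((2 / 3 : ℝ) ^ (p * p))⁻¹) ^ S.card * ‖ZF‖) := by
  have hg : ∀ w, 0 ≤ (1 - U w)⁻¹ := fun w => by
    have := hUT w; have := hT (below w)
    exact inv_nonneg.mpr (by linarith)
  refine generic_bound below S (fun w => (1 - U w)⁻¹) hg (fun v => ‖locF2 p a b T v‖) p
    ((3 : ℝ) ^ (p * p)) ((2 / 3 : ℝ) ^ (p * p)) (one_le_pow₀ (by norm_num)) (by positivity)
    (pow_le_one₀ (by norm_num) (by norm_num)) ?_ ?_ ?_ ?_ hZF.norm hZM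
  · -- local comparison outside `S`
    intro v hvS W hW
    have hgen := prodM_le_gen below T U hT0 hT hU0 hUT hfib v W hW
    have h0 : 0 ≤ ∏ w ∈ W, (1 - U w)⁻¹ := Finset.prod_nonneg fun w _ => hg w
    by_cases h : a v ≠ 1 ∨ b v ≠ 1
    · have hin := prodM_le_inert hp.one_le below T U hT0 hT v (hinert v hvS h)
        (hinertU v hvS h) W hW
      rw [locF2_inert hp a b T v (ha v) (hb v) h, Complex.norm_real, Real.norm_of_nonneg]
      · exact pow_le_pow_left₀ h0 hin p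
      · have h1 := pow_le_half (hT0 v) (hT v) hp.one_le
        have h2 : 0 < 1 - T v ^ p := by linarith
        positivity
    · push Not at h
      rw [locF2_split a b T v h.1 h.2, Complex.norm_real, Real.norm_of_nonneg, pow_mul]
      · exact pow_le_pow_left₀ h0 hgen p
      · have := hT v
        have h2 : 0 < 1 - T v := by linarith
        positivity
  · -- local comparison at `S`
    intro v _ W hW
    have hgen := prodM_le_gen below T U hT0 hT hU0 hUT hfib v W hW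
    have h0 : 0 ≤ ∏ w ∈ W, (1 - U w)⁻¹ := Finset.prod_nonneg fun w _ => hg w
    have hl := two_thirds_pow_le_norm_locF2 hp.ne_zero a b T ha hb hT0 hT v
    have h2 : (1 - T v)⁻¹ ^ p ≤ (2 : ℝ) ^ p :=
      pow_le_pow_left₀ (by have := hT v; have : 0 < 1 - T v := by linarith
                           positivity) (inv_one_sub_le_two (hT0 v) (hT v)) p
    calc (∏ w ∈ W, (1 - U w)⁻¹) ^ p ≤ ((2 : ℝ) ^ p) ^ p :=
          pow_le_pow_left₀ h0 (hgen.trans h2) p
      _ = (3 : ℝ) ^ (p * p) * (2 / 3 : ℝ) ^ (p * p) := by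
          rw [← mul_pow, ← pow_mul]; norm_num
      _ ≤ (3 : ℝ) ^ (p * p) * ‖locF2 p a b T v‖ := by gcongr
  · -- factors outside `S` are at least one
    intro v hvS
    by_cases h : a v ≠ 1 ∨ b v ≠ 1
    · rw [locF2_inert hp a b T v (ha v) (hb v) h, Complex.norm_real, Real.norm_of_nonneg]
      · exact one_le_pow₀ (one_le_inv_one_sub (pow_pos (hT0 v) p)
          (pow_le_half (hT0 v) (hT v) hp.one_le))
      · have h1 := pow_le_half (hT0 v) (hT v) hp.one_le
        have h2 : 0 < 1 - T v ^ p := by linarith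
        positivity
    · push Not at h
      rw [locF2_split a b T v h.1 h.2, Complex.norm_real, Real.norm_of_nonneg]
      · exact one_le_pow₀ (one_le_inv_one_sub (hT0 v) (hT v))
      · have := hT v
        have h2 : 0 < 1 - T v := by linarith
        positivity
  · intro v _
    exact two_thirds_pow_le_norm_locF2 hp.ne_zero a b T ha hb hT0 hT v

end TwoChar

end Fermat.Agent.S14C.SecondIneqAn
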