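import Mathlib
import Fermat.Agent.S14C.SI.Defs

/-!
# S14C, leaf [SI-Z] / [ZS], hypothesis-form core

`exists_prime_sym_ne_zero_of`: the symbol form of the zeta-pole lemma (Z)
(`SIPlan.exists_prime_sym_ne_zero`), deduced from ONE input: the `𝓞`-form "non-residue" statement
(`S14Z.exists_prime_nonresidue`, helper79) for the field `F`.

The content of this file is the translation:
* `u : F` arbitrary, `a = u * d ^ p` integral;
* `Above`, `ord`, `nrm` of `SI/Defs` in terms of membership in the prime ideal;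
* `sym p ζ v u = 0` implies that `a` is a `p`-th power residue modulo `v` (Euler's criterion in
  the finite field `𝓞 F ⧸ v`, including the junk branch of `sym`).
-/

set_option autoImplicit false

namespace Fermat.Agent.S14C.ZSymCore

open IsDedekindDomain NumberField Fermat.Agent.S14C.SIDefs

/-- Euler's criterion in a finite field: if `x ^ ((q - 1) / p) = 1` with `p ∣ q - 1`, then `x`
is a `p`-th power. -/
theorem exists_pow_eq_of_pow_eq_one {k : Type*} [Field k] [Finite k] {p : ℕ}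
    (hp : p ∣ Nat.card k - 1) {x : k} (hx : x ≠ 0)
    (h : x ^ ((Nat.card k - 1) / p) = 1) : ∃ w : k, w ^ p = x := by
  obtain ⟨g, hg⟩ := IsCyclic.exists_generator (α := kˣ)
  have hord : orderOf g = Nat.card k - 1 := by
    rw [orderOf_eq_card_of_forall_mem_zpowers hg, Nat.card_units]
  have hpos : 0 < Nat.card k - 1 := by
    rw [← hord]; exact orderOf_pos g
  obtain ⟨j, hj⟩ := Subgroup.mem_zpowers_iff.mp (hg (Units.mk0 x hx))
  obtain ⟨m, hm⟩ := hp
  have hp0 : p ≠ 0 := by
    rintro rfl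
    simp at hm
    omega
  have hm0 : m ≠ 0 := by
    rintro rfl
    simp at hm
    omega
  have hdiv : (Nat.card k - 1) / p = m := by
    rw [hm]; exact Nat.mul_div_cancel_left m (Nat.pos_of_ne_zero hp0)
  have h1 : (Units.mk0 x hx) ^ m = 1 := by
    apply Units.ext
    rw [Units.val_pow_eq_pow_val, Units.val_mk0, Units.val_one, ← hdiv]
    exact h
  rw [← hj, ← zpow_natCast, ← zpow_mul, ← orderOf_dvd_iff_zpow_eq_one, hord, hm] at h1
  have h2 : (p : ℤ) ∣ j := by
    apply Int.dvd_of_mul_dvd_mul_right (a := (m : ℤ)) (by exact_mod_cast hm0)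
    simpa using h1
  obtain ⟨j', rfl⟩ := h2
  refine ⟨((g ^ j' : kˣ) : k), ?_⟩
  have : (g ^ j') ^ p = Units.mk0 x hx := by
    rw [← hj, ← zpow_natCast, ← zpow_mul, mul_comm]
  rw [← Units.val_pow_eq_pow_val, this, Units.val_mk0]

variable {F : Type} [Field F] [NumberField F]

theorem valuation_coe_eq_one {v : Pl F} {x : 𝓞 F} (hx : x ∉ v.asIdeal) :
    v.valuation F (x : F) = 1 :=
  (HeightOneSpectrum.valuation_eq_one_iff_notMem v).mpr hx

theorem not_above_of_notMem {p : ℕ} {v : Pl F} (hvp : (p : 𝓞 F) ∉ v.asIdeal) : ¬ Above p v := by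
  intro h
  apply hvp
  have h' : v.valuation F (((p : 𝓞 F) : 𝓞 F) : F) < 1 := by
    simpa [Above] using h
  exact (HeightOneSpectrum.valuation_lt_one_iff_mem v _).mp h'

theorem ord_eq_zero_of_eq_mul_pow {v : Pl F} {u : F} {n : ℕ} {d a : 𝓞 F}
    (hau : (a : F) = u * (d : F) ^ n) (hd : d ∉ v.asIdeal) (ha : a ∉ v.asIdeal) :
    ord v u = 0 := by
  have h1 := valuation_coe_eq_one ha
  have h2 := valuation_coe_eq_one hd
  rw [hau, map_mul, map_pow, h2, one_pow, mul_one] at h1
  rw [ord, h1, WithZero.log_one, neg_zero]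

/-- a finite set containing all primes dividing a nonzero integer. -/
theorem exists_finset_of_ne_zero {x : 𝓞 F} (hx : x ≠ 0) :
    ∃ T : Finset (Pl F), ∀ v : Pl F, x ∈ v.asIdeal → v ∈ T := by
  have hfin : {v : Pl F | v.asIdeal ∣ Ideal.span {x}}.Finite :=
    Ideal.finite_factors (by simpa using hx)
  refine ⟨hfin.toFinset, fun v hv => ?_⟩
  rw [Set.Finite.mem_toFinset]
  exact Ideal.dvd_span_singleton.mpr hv

attribute [local instance] Ideal.Quotient.field in
/-- If `sym p ζ v u = 0` and `a = u * d ^ p` with `a, d` integral `v`-units, `v ∤ p`, then `a` is a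
`p`-th power residue modulo `v`. -/
theorem exists_pow_sub_mem_of_sym_eq_zero {p : ℕ} [Fact p.Prime] {ζ : F}
    (hζ : IsPrimitiveRoot ζ p) (v : Pl F) {u : F} (d a : 𝓞 F)
    (hau : (a : F) = u * (d : F) ^ p) (hvp : (p : 𝓞 F) ∉ v.asIdeal) (hd : d ∉ v.asIdeal)
    (ha : a ∉ v.asIdeal) (hs : sym p ζ v u = 0) : ∃ x : 𝓞 F, x ^ p - a ∈ v.asIdeal := by
  have hpprime : p.Prime := Fact.out
  have : NeZero p := ⟨hpprime.ne_zero⟩
  set k := 𝓞 F ⧸ v.asIdeal with hk
  set π := Ideal.Quotient.mk v.asIdeal with hπ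
  have hcard : nrm v = Nat.card k := by
    rw [nrm, Ideal.absNorm_apply, Submodule.cardQuot_apply]
  -- the image of `ζ` in the residue field is a primitive `p`-th root of unity
  have hζ' : IsPrimitiveRoot hζ.toInteger p := hζ.toInteger_isPrimitiveRoot
  have hζcoe : ((hζ.toInteger : 𝓞 F) : F) = ζ := hζ.coe_toInteger
  set ζb : k := π hζ.toInteger with hζb
  have hζb_pow : ζb ^ p = 1 := by
    rw [hζb, ← map_pow, hζ'.pow_eq_one, map_one]
  have hζb_ne : ζb ≠ 1 := by
    intro h1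
    apply hvp
    have hsum := hζ'.geom_sum_eq_zero hpprime.one_lt
    have := congrArg π hsum
    rw [map_sum] at this
    simp only [map_pow, ← hζb, h1, one_pow, Finset.sum_const, Finset.card_range, nsmul_eq_mul,
      mul_one, map_zero] at this
    rw [← Ideal.Quotient.eq_zero_iff_mem, map_natCast]
    exact this
  have hζb_prim : IsPrimitiveRoot ζb p := by
    have h := IsPrimitiveRoot.orderOf ζb
    rwa [orderOf_eq_prime hζb_pow hζb_ne] at h
  have hζb0 : ζb ≠ 0 := by
    rintro h0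
    rw [h0, zero_pow hpprime.ne_zero] at hζb_pow
    exact zero_ne_one hζb_pow
  have hpdvd : p ∣ Nat.card k - 1 := by
    have h1 : orderOf (Units.mk0 ζb hζb0) = p := by
      rw [← orderOf_units, Units.val_mk0]
      exact orderOf_eq_prime hζb_pow hζb_ne
    rw [← h1, ← Nat.card_units]
    exact orderOf_dvd_natCard _
  obtain ⟨m, hm⟩ := hpdvd
  have hmdiv : (nrm v - 1) / p = m := by
    rw [hcard, hm]; exact Nat.mul_div_cancel_left m hpprime.pos
  -- residues of `a`, `d`
  have hab : π a ≠ 0 := by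
    rw [Ne, Ideal.Quotient.eq_zero_iff_mem]; exact ha
  have hdb : π d ≠ 0 := by
    rw [Ne, Ideal.Quotient.eq_zero_iff_mem]; exact hd
  have hdF : (d : F) ≠ 0 := by
    intro h0
    apply hd
    have : d = 0 := by
      apply RingOfIntegers.ext
      simpa using h0
    rw [this]; exact zero_mem _
  set ub : k := π a * (π d ^ p)⁻¹ with hub
  have hub0 : ub ≠ 0 := mul_ne_zero hab (inv_ne_zero (pow_ne_zero _ hdb))
  -- translation of the congruence
  have hζcoe' : algebraMap (𝓞 F) F hζ.toInteger = ζ := hζ.coe_toInteger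
  have hau' : algebraMap (𝓞 F) F a = u * (algebraMap (𝓞 F) F d) ^ p := hau
  have hdF' : algebraMap (𝓞 F) F d ≠ 0 := hdF
  have hvd1 : v.valuation F (algebraMap (𝓞 F) F d) = 1 := valuation_coe_eq_one hd
  have factA : ∀ j : ℕ, CongMod v (u ^ m) (ζ ^ j) ↔ ub ^ m = ζb ^ j := by
    intro j
    have hu : u = algebraMap (𝓞 F) F a / (algebraMap (𝓞 F) F d) ^ p := by
      rw [eq_div_iff (pow_ne_zero _ hdF')]; exact hau'.symm
    have h1 : algebraMap (𝓞 F) F (a ^ m - hζ.toInteger ^ j * d ^ (p * m)) =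
        (u ^ m - ζ ^ j) * (algebraMap (𝓞 F) F d) ^ (p * m) := by
      rw [map_sub, map_mul, map_pow, map_pow, map_pow, hζcoe', hu, div_pow, ← pow_mul, sub_mul,
        div_mul_cancel₀ _ (pow_ne_zero _ hdF')]
    have hval : v.valuation F (u ^ m - ζ ^ j) =
        v.valuation F (algebraMap (𝓞 F) F (a ^ m - hζ.toInteger ^ j * d ^ (p * m))) := by
      rw [h1, map_mul, map_pow, hvd1, one_pow, mul_one]
    have hmem : CongMod v (u ^ m) (ζ ^ j) ↔
        a ^ m - hζ.toInteger ^ j * d ^ (p * m) ∈ v.asIdeal := by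
      unfold CongMod
      rw [hval]
      exact HeightOneSpectrum.valuation_lt_one_iff_mem v _
    have hdm : π d ^ (p * m) ≠ 0 := pow_ne_zero _ hdb
    rw [hmem, ← Ideal.Quotient.eq_zero_iff_mem, map_sub, map_mul, map_pow, map_pow, map_pow,
      sub_eq_zero]
    change π a ^ m = ζb ^ j * π d ^ (p * m) ↔ (π a * (π d ^ p)⁻¹) ^ m = ζb ^ j
    rw [mul_pow, inv_pow, ← pow_mul]
    constructor
    · intro h
      rw [h]
      exact mul_inv_cancel_right₀ hdm _
    · intro h
      rw [← h]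
      exact (inv_mul_cancel_right₀ hdm _).symm
  -- `ub ^ m` is a `p`-th root of unity
  have hubm : (ub ^ m) ^ p = 1 := by
    have h1 : (Units.mk0 ub hub0) ^ (Nat.card kˣ) = 1 := pow_card_eq_one'
    rw [Nat.card_units, hm] at h1
    have h2 := congrArg Units.val h1
    rw [Units.val_pow_eq_pow_val, Units.val_mk0, Units.val_one] at h2
    rw [← pow_mul, mul_comm m p]
    exact h2
  obtain ⟨i, hi, hiζ⟩ := hζb_prim.eq_pow_of_pow_eq_one hubm
  have hex : ∃ κ : ZMod p, CongMod v (u ^ ((nrm v - 1) / p)) (ζ ^ κ.val) := by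
    refine ⟨(i : ZMod p), ?_⟩
    rw [ZMod.val_natCast_of_lt hi, hmdiv]
    exact (factA i).mpr hiζ.symm
  have hspec := hex.choose_spec
  have hs' : hex.choose = 0 := by
    have : sym p ζ v u = hex.choose := by
      unfold sym
      rw [dif_pos hex]
    rw [← this]; exact hs
  rw [hs', ZMod.val_zero, hmdiv] at hspec
  have hone : ub ^ m = 1 := by
    rw [(factA 0).mp hspec, pow_zero]
  -- Euler's criterion
  obtain ⟨w, hw⟩ := exists_pow_eq_of_pow_eq_one (k := k) ⟨m, hm⟩ hub0 (by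
    have : (Nat.card k - 1) / p = m := by
      rw [hm]; exact Nat.mul_div_cancel_left m hpprime.pos
    rw [this]; exact hone)
  obtain ⟨x, hx⟩ := Ideal.Quotient.mk_surjective (w * π d)
  refine ⟨x, ?_⟩
  rw [← Ideal.Quotient.eq_zero_iff_mem, map_sub, map_pow]
  change π x ^ p - π a = 0
  rw [hx, mul_pow, hw, hub, sub_eq_zero]
  field_simp

/-- **[SI-Z] in hypothesis form.** From the `𝓞`-form non-residue statement for `F`
(`hNR`, the statement of `S14Z.exists_prime_nonresidue`) deduce the symbol form of the zeta-pole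
lemma in the language of `SI/Defs`. -/
theorem exists_prime_sym_ne_zero_of {p : ℕ} [Fact p.Prime] {ζ : F}
    (hNR : ∀ (ζ' a : 𝓞 F), IsPrimitiveRoot ζ' p → (¬ ∃ x : F, x ^ p = (a : F)) →
      ∀ T₀ : Finset (HeightOneSpectrum (𝓞 F)), ∃ v : HeightOneSpectrum (𝓞 F), v ∉ T₀ ∧
        (Ideal.absNorm v.asIdeal).Prime ∧ (p : 𝓞 F) ∉ v.asIdeal ∧ a ∉ v.asIdeal ∧
        ¬ ∃ x : 𝓞 F, x ^ p - a ∈ v.asIdeal)
    (hζ : IsPrimitiveRoot ζ p) {u : F} (hu : ∀ b : F, b ^ p ≠ u) (Z : Finset (Pl F)) :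
    ∃ Q : Pl F, Q ∉ Z ∧ ¬ Above p Q ∧ ord Q u = 0 ∧ (nrm Q).Prime ∧ sym p ζ Q u ≠ 0 := by
  classical
  have hpprime : p.Prime := Fact.out
  have : NeZero p := ⟨hpprime.ne_zero⟩
  -- write `u = n / d`
  obtain ⟨n, d, hdmem, hnd⟩ := IsFractionRing.div_surjective (A := 𝓞 F) u
  have hd0 : d ≠ 0 := nonZeroDivisors.ne_zero hdmem
  have hdF : (d : F) ≠ 0 := by
    intro h0
    apply hd0
    apply RingOfIntegers.ext
    simpa using h0
  obtain ⟨p', rfl⟩ : ∃ p', p = p' + 1 := ⟨p - 1, (Nat.succ_pred_eq_of_pos hpprime.pos).symm⟩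
  set a : 𝓞 F := n * d ^ p' with ha
  have hau : (a : F) = u * (d : F) ^ (p' + 1) := by
    rw [ha, ← hnd]
    push_cast
    rw [← RingOfIntegers.coe_eq_algebraMap, ← RingOfIntegers.coe_eq_algebraMap]
    field_simp
    ring
  have hanot : ¬ ∃ x : F, x ^ (p' + 1) = (a : F) := by
    rintro ⟨x, hx⟩
    apply hu (x / (d : F))
    rw [div_pow, hx, hau]
    field_simp
  obtain ⟨T, hT⟩ := exists_finset_of_ne_zero hd0
  obtain ⟨v, hvT, hvprime, hvp, hva, hvres⟩ :=
    hNR hζ.toInteger a hζ.toInteger_isPrimitiveRoot hanot (Z ∪ T)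
  have hvZ : v ∉ Z := fun h => hvT (Finset.mem_union_left _ h)
  have hvd : d ∉ v.asIdeal := fun h => hvT (Finset.mem_union_right _ (hT v h))
  refine ⟨v, hvZ, not_above_of_notMem hvp, ord_eq_zero_of_eq_mul_pow hau hvd hva, hvprime, ?_⟩
  intro hs
  exact hvres (exists_pow_sub_mem_of_sym_eq_zero hζ v d a hau hvp hvd hva hs)

end Fermat.Agent.S14C.ZSymCore
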