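import Fermat.Agent.S14C.ZSymCore
import Fermat.Agent.S14Z.ZetaKummer

/-!
# S14C, leaf [SI-Z] / [ZS]: the symbol form of the zeta-pole lemma (Z)

`exists_prime_sym_ne_zero` is the statement of the SI leaf table (`SIPlan.exists_prime_sym_ne_zero`)
verbatim: if `u` is not a `p`-th power in `F ∋ ζ_p`, then outside any finite set of primes there is
a prime `Q` of prime norm, not above `p`, at which `u` is a unit and `sym p ζ Q u ≠ 0`.

It is `ZSymCore.exists_prime_sym_ne_zero_of` applied to `S14Z.exists_prime_nonresidue`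
(helper79: Kummer field + splitting of residue primes + zeta pole).
`exists_prime_sym_ne_zero_norm` is the variant avoiding a finite set of rational primes.
-/

set_option autoImplicit false

namespace Fermat.Agent.S14C.ZSymF

open IsDedekindDomain NumberField Fermat.Agent.S14C.SIDefs

variable {F : Type} [Field F] [NumberField F] {p : ℕ} [Fact p.Prime] {ζ : F}

/-- **[SI-Z]** symbol form of the zeta-pole lemma (Z). -/
theorem exists_prime_sym_ne_zero (hp2 : p ≠ 2) (hζ : IsPrimitiveRoot ζ p)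
    {u : F} (hu : ∀ b : F, b ^ p ≠ u) (Z : Finset (Pl F)) :
    ∃ Q : Pl F, Q ∉ Z ∧ ¬ Above p Q ∧ ord Q u = 0 ∧ (nrm Q).Prime ∧ sym p ζ Q u ≠ 0 :=
  have _ := hp2
  ZSymCore.exists_prime_sym_ne_zero_of
    (fun ζ' a hζ' ha T₀ => Fermat.Agent.S14Z.exists_prime_nonresidue Fact.out F ζ' a hζ' ha T₀)
    hζ hu Z

/-- Variant of `exists_prime_sym_ne_zero` avoiding a finite set of rational primes: the norm of
`Q` is a prime number outside `T`, different from `p`. -/
theorem exists_prime_sym_ne_zero_norm (hp2 : p ≠ 2) (hζ : IsPrimitiveRoot ζ p)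
    {u : F} (hu : ∀ b : F, b ^ p ≠ u) (T : Finset ℕ) :
    ∃ Q : Pl F, nrm Q ∉ T ∧ nrm Q ≠ p ∧ ¬ Above p Q ∧ ord Q u = 0 ∧ (nrm Q).Prime ∧
      sym p ζ Q u ≠ 0 := by
  classical
  obtain ⟨Z, hZ⟩ : ∃ Z : Finset (Pl F), ∀ v : Pl F, nrm v ∈ insert p T → v ∈ Z :=
    ⟨(Fermat.Agent.S14Z.finite_primes_absNorm_mem (K := F) (insert p T)).toFinset, fun v hv => by
      rw [Set.Finite.mem_toFinset]; exact hv⟩
  obtain ⟨Q, hQZ, hQp, hQu, hQprime, hQs⟩ := exists_prime_sym_ne_zero hp2 hζ hu Z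
  refine ⟨Q, fun h => hQZ (hZ Q (Finset.mem_insert_of_mem h)), fun h => hQZ (hZ Q ?_), hQp, hQu,
    hQprime, hQs⟩
  rw [h]; exact Finset.mem_insert_self _ _

end Fermat.Agent.S14C.ZSymF
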